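import Fermat.Agent.LT.ClassField.Crossing

/-!
# Closeness to `1` at the places over the bad primes
-/

set_option autoImplicit false

noncomputable section

open NumberField IsDedekindDomain Finset
open scoped Pointwise

namespace FermatAgent.LTG.ClassField

open FermatAgent.Duality (localGroup localField)
open FermatAgent.Duality.Global (Over IsPlace exists_over exists_place ord exists_smul_eq_of_over)
open FermatAgent.RT (centre mem_centre_iff mem_of_isIntegral_int)
open FermatAgent.LT.ClassField (exists_good exists_approx_two)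

local notation "Qb" => AlgebraicClosure ℚ
local notation "GQ" => AlgebraicClosure ℚ ≃ₐ[ℚ] AlgebraicClosure ℚ

attribute [local instance] FermatAgent.RT.isGalois_algClosureRat
  FermatAgent.Duality.Global.numberField_of_finite

variable {E : IntermediateField ℚ Qb} [NumberField E] {m : ℕ}

/-- Places over the primes dividing `m`. -/
def IsBadPlace (m : ℕ) (A : ValuationSubring Qb) : Prop :=
  ∃ l : ℕ, l.Prime ∧ l ∣ m ∧ A.LiesOverPrime l

theorem IsBadPlace.isPlace {A : ValuationSubring Qb} (h : IsBadPlace m A) : IsPlace A := by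
  obtain ⟨l, hl, -, hA⟩ := h
  exact ⟨l, hl, hA⟩

theorem IsBadPlace.smul {A : ValuationSubring Qb} (h : IsBadPlace m A) (g : GQ) :
    IsBadPlace m (g • A) := by
  obtain ⟨l, hl, hlm, hA⟩ := h
  exact ⟨l, hl, hlm, TW.smul_liesOverPrime hA g⟩

theorem exists_isBadPlace (h2 : 2 ∣ m) : ∃ A : ValuationSubring Qb, IsBadPlace m A := by
  obtain ⟨A, hA⟩ := FermatAgent.RT.exists_liesOverPrime Nat.prime_two
  exact ⟨A, 2, Nat.prime_two, h2, hA⟩

theorem IsBadPlace.val_m_lt {A : ValuationSubring Qb} (h : IsBadPlace m A) :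
    A.valuation (m : Qb) < 1 := by
  obtain ⟨l, -, ⟨k, rfl⟩, hA⟩ := h
  rw [Nat.cast_mul, map_mul]
  exact lt_of_le_of_lt (mul_le_of_le_one_right' ((A.valuation_le_one_iff _).2 (natCast_mem A k)))
    (A.mem_nonunits_iff.1 hA)

theorem finite_setOf_bad (hm : m ≠ 0) :
    {P : HeightOneSpectrum (𝓞 E) | (m : 𝓞 E) ∈ P.asIdeal}.Finite :=
  CFT.finite_primes_containing (x := (m : 𝓞 E)) (by exact_mod_cast hm)

variable {r : Qb}

/-- **Adjustment.** -/
theorem exists_close_quad (hm : m ≠ 0) (h2 : 2 ∣ m) {s : GQ} (hs : s ∈ E.fixingSubgroup) (hr0 : r ≠ 0) (hri : IsIntegral ℤ r)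
    (hr2 : r ^ 2 ∈ E) (hsr : s r = -r) {z x : Qb}
    (hz : ∀ g ∈ E.fixingSubgroup, g r = r → g z = z) (hzx : z * s z = x) {R N : ℕ}
    (hR : ∀ A, IsBadPlace m A → A.valuation (R : Qb) ≤ A.valuation r)
    (hx : ∀ A, IsBadPlace m A →
      A.valuation (x - 1) ≤ A.valuation ((N * (4 * R) : ℕ) : Qb)) :
    ∃ z' : Qb, (∀ g ∈ E.fixingSubgroup, g r = r → g z' = z') ∧ z' * s z' = x ∧
      ∀ A, IsBadPlace m A → A.valuation (z' - 1) ≤ A.valuation (N : Qb) := by
  classical
  have hsign : ∀ g ∈ E.fixingSubgroup, g r = r ∨ g r = -r := fun g hg => by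
    refine sq_eq_sq_iff_eq_or_eq_neg.1 ?_
    rw [← map_pow]
    exact hg ⟨_, hr2⟩
  have hss : ∀ w : Qb, (∀ g ∈ E.fixingSubgroup, g r = r → g w = w) → s (s w) = w := fun w hw => by
    rw [← AlgEquiv.mul_apply]
    exact hw _ (mul_mem hs hs) (by rw [AlgEquiv.mul_apply, hsr, map_neg, hsr, neg_neg])
  set X := 1 + z
  set Y := r * (1 - z)
  set T := (finite_setOf_bad (E := E) hm).toFinset
  have hT : ∀ A P, IsBadPlace m A → Over E A P → P ∈ T := fun A P hA hP => by
    refine (Set.Finite.mem_toFinset _).2 ?_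
    show (m : 𝓞 E) ∈ P.asIdeal
    rw [← hP.2, Ideal.mem_comap, map_natCast, mem_centre_iff, A.mem_nonunits_iff]
    exact hA.val_m_lt
  choose pl hpl using exists_place (K := E)
  choose c hcA hcB using fun P => exists_good (pl P) (s⁻¹ • pl P) X Y
  obtain ⟨y, hy⟩ := exists_approx_two T c
  set u := X + ((y : E) : Qb) * Y with hu
  have hufix : ∀ g ∈ E.fixingSubgroup, g r = r → g u = u := fun g hg hgr => by
    simp only [hu, X, Y, map_add, map_one, map_mul, map_sub, hgr, hz g hg hgr,
      show g ((y : E) : Qb) = ((y : E) : Qb) from hg ⟨_, (y : E).2⟩]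
  have hbound : ∀ A, IsBadPlace m A → A.valuation ((4 : Qb) * r) ≤ A.valuation u := by
    intro A hA
    obtain ⟨P, hP⟩ := exists_over (K := E) hA.isPlace
    have hPT := hT A P hA hP
    have key : ∀ B, Over E B P →
        B.valuation 2 * max (B.valuation X) (B.valuation Y) ≤ B.valuation (X + (c P : Qb) * Y) →
        B.valuation ((4 : Qb) * r) ≤ B.valuation u := by
      intro B hB hgood
      set μ := max (B.valuation X) (B.valuation Y)
      have hrle : B.valuation r ≤ 1 := (B.valuation_le_one_iff _).2 (mem_of_isIntegral_int B hri)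
      have hμ : B.valuation 2 * B.valuation r ≤ μ := by
        rw [← map_mul, show (2 : Qb) * r = r * X + Y by simp only [X, Y]; ring]
        exact (B.valuation.map_add _ _).trans (max_le_max
          (by rw [map_mul]; exact mul_le_of_le_one_left' hrle) le_rfl)
      have hμ0 : 0 < μ := lt_of_lt_of_le (mul_pos (zero_lt_iff.2 ((map_ne_zero _).2 two_ne_zero))
        (zero_lt_iff.2 ((map_ne_zero _).2 hr0))) hμ
      have hd := hy P hPT B hB
      have hlt : B.valuation ((((y : E) : Qb) - c P) * Y) < B.valuation 2 * μ := by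
        rw [map_mul]
        exact mul_lt_mul_of_lt_of_le_of_nonneg_of_pos hd (le_max_right _ _) zero_le hμ0
      rw [show u = (X + (c P : Qb) * Y) + (((y : E) : Qb) - c P) * Y by rw [hu]; ring,
        B.valuation.map_add_eq_of_lt_left (hlt.trans_le hgood)]
      refine le_trans ?_ hgood
      rw [show (4 : Qb) * r = 2 * (2 * r) by ring, map_mul, map_mul]
      exact mul_le_mul' le_rfl hμ
    obtain ⟨g, hg, rfl⟩ := exists_smul_eq_of_over (hpl P) hP
    -- move to `pl P` or `s⁻¹ • pl P`
    have hmove : ∀ (B : ValuationSubring Qb) (h : GQ), h ∈ E.fixingSubgroup → h r = r →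
        B.valuation ((4 : Qb) * r) ≤ B.valuation u →
        (h • B).valuation ((4 : Qb) * r) ≤ (h • B).valuation u := by
      intro B h hh hhr hle
      have hu0 : u ≠ 0 := fun h0 => by
        rw [h0, map_zero, le_zero_iff, map_eq_zero, mul_eq_zero] at hle
        exact hle.elim (by norm_num) hr0
      rw [← div_le_one₀ (zero_lt_iff.2 ((map_ne_zero _).2 hu0)), ← map_div₀,
        ValuationSubring.valuation_le_one_iff] at hle ⊢
      rw [ValuationSubring.mem_pointwise_smul_iff_inv_smul_mem, AlgEquiv.smul_def]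
      have hinv : ∀ w : Qb, (∀ g ∈ E.fixingSubgroup, g r = r → g w = w) → h⁻¹ w = w :=
        fun w hw => hw _ (inv_mem hh) (h.injective (by
          rw [← AlgEquiv.mul_apply, mul_inv_cancel, AlgEquiv.one_apply, hhr]))
      rwa [map_div₀, map_mul, map_ofNat, hinv r (fun _ _ h => h), hinv u hufix]
    rcases hsign g hg with hgr | hgr
    · exact hmove _ g hg hgr (key _ (hpl P) (hcA P))
    · have := hmove (s⁻¹ • pl P) (g * s) (mul_mem hg hs)
        (by rw [AlgEquiv.mul_apply, hsr, map_neg, hgr, neg_neg])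
        (key _ ((hpl P).smul (inv_mem hs)) (hcB P))
      rwa [mul_smul, smul_inv_smul] at this
  obtain ⟨A₂, hA₂⟩ := exists_isBadPlace h2
  have hu0 : u ≠ 0 := fun h => by
    have := hbound A₂ hA₂
    rw [h, map_zero, le_zero_iff, map_eq_zero, mul_eq_zero] at this
    exact this.elim (by norm_num) hr0
  have hsu : z * s u - u = (x - 1) * (1 + ((y : E) : Qb) * r) := by
    have hsy : s ((y : E) : Qb) = ((y : E) : Qb) := hs ⟨_, (y : E).2⟩
    simp only [hu, X, Y, map_add, map_one, map_mul, map_sub, hsr, hsy, ← hzx]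
    ring
  refine ⟨z * s u / u, fun g hg hgr => ?_, ?_, fun A hA => ?_⟩
  · have hsu' : g (s u) = s u := by
      have h1 := hufix (s⁻¹ * g * s) (mul_mem (mul_mem (inv_mem hs) hg) hs) (by
        rw [AlgEquiv.mul_apply, AlgEquiv.mul_apply, hsr, map_neg, hgr]
        exact s.injective (by rw [← AlgEquiv.mul_apply, mul_inv_cancel, AlgEquiv.one_apply, hsr]))
      have h2 := congrArg s h1
      rwa [← AlgEquiv.mul_apply, ← mul_assoc, ← mul_assoc, mul_inv_cancel, one_mul,
        AlgEquiv.mul_apply] at h2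
    rw [map_div₀, map_mul, hz g hg hgr, hsu', hufix g hg hgr]
  · rw [map_div₀, map_mul, hss u hufix, ← hzx]
    have : s u ≠ 0 := (map_ne_zero _).2 hu0
    field_simp
  · rw [div_sub_one hu0, map_div₀, hsu, map_mul,
      div_le_iff₀ (zero_lt_iff.2 ((map_ne_zero _).2 hu0))]
    have h1 : A.valuation (1 + ((y : E) : Qb) * r) ≤ 1 := (A.valuation_le_one_iff _).2
      (add_mem (one_mem A) (mul_mem (mem_of_isIntegral_int A
        ((NumberField.RingOfIntegers.isIntegral_coe y).map (E.val.restrictScalars ℤ)))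
        (mem_of_isIntegral_int A hri)))
    refine (mul_le_of_le_one_right' h1).trans ((hx A hA).trans ?_)
    rw [Nat.cast_mul, map_mul, Nat.cast_mul, Nat.cast_ofNat]
    refine mul_le_mul' le_rfl (le_trans ?_ (hbound A hA))
    rw [map_mul]
    exact mul_le_mul' le_rfl (hR A hA)

/-! ### Closeness to `1` -/

/-- `w` is `1` modulo `N` at the places over the primes dividing `m`. -/
def Close (m N : ℕ) (w : Qb) : Prop :=
  ∀ A, IsBadPlace m A → A.valuation (w - 1) ≤ A.valuation (N : Qb)

theorem IsBadPlace.val_lt_one {A : ValuationSubring Qb} (h : IsBadPlace m A) {N : ℕ}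
    (hN : m ∣ N) : A.valuation (N : Qb) < 1 := by
  obtain ⟨k, rfl⟩ := hN
  rw [Nat.cast_mul, map_mul]
  exact lt_of_le_of_lt (mul_le_of_le_one_right' ((A.valuation_le_one_iff _).2 (natCast_mem A k)))
    h.val_m_lt

namespace Close

variable {N : ℕ} {v w : Qb}

theorem one (m N : ℕ) : Close m N 1 := fun A _ => by simp

theorem of_dvd (h : Close m N w) {K : ℕ} (hd : K ∣ N) : Close m K w := fun A hA => by
  obtain ⟨k, rfl⟩ := hd
  refine (h A hA).trans ?_
  rw [Nat.cast_mul, map_mul]
  exact mul_le_of_le_one_right' ((A.valuation_le_one_iff _).2 (natCast_mem A k))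

theorem apply (h : Close m N w) (g : GQ) : Close m N (g w) := fun A hA => by
  rcases eq_or_ne (N : Qb) 0 with hN | hN
  · have h1 := h (g⁻¹ • A) (hA.smul _)
    rw [hN, map_zero, le_zero_iff, map_eq_zero, sub_eq_zero] at h1
    simp [h1]
  have key : ∀ (B : ValuationSubring Qb) (t : Qb), B.valuation t ≤ B.valuation (N : Qb) ↔
      t / N ∈ B := fun B t => by
    rw [← B.valuation_le_one_iff, map_div₀, div_le_one₀ (zero_lt_iff.2 ((map_ne_zero _).2 hN))]
  have h1 := (key _ _).1 (h (g⁻¹ • A) (hA.smul _))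
  rw [ValuationSubring.mem_pointwise_smul_iff_inv_smul_mem, inv_inv, AlgEquiv.smul_def, map_div₀,
    map_natCast, map_sub, map_one] at h1
  exact (key _ _).2 h1

theorem val_eq_one (h : Close m N w) (hN : m ∣ N) {A : ValuationSubring Qb} (hA : IsBadPlace m A) :
    A.valuation w = 1 :=
  Duality.Local.val_eq_one_of_sub_lt ((h A hA).trans_lt (hA.val_lt_one hN))

theorem mul (h : Close m N v) (h' : Close m N w) : Close m N (v * w) := fun A hA => by
  have hv : A.valuation v ≤ 1 := by
    rw [show v = (v - 1) + 1 by ring]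
    exact (A.valuation.map_add _ _).trans (max_le ((h A hA).trans
      ((A.valuation_le_one_iff _).2 (natCast_mem A N))) (map_one _).le)
  rw [show v * w - 1 = v * (w - 1) + (v - 1) by ring]
  exact (A.valuation.map_add _ _).trans (max_le (by
    rw [map_mul]; exact (mul_le_of_le_one_left' hv).trans (h' A hA)) (h A hA))

theorem prod {ι : Type*} (s : Finset ι) (u : ι → Qb) (h : ∀ i ∈ s, Close m N (u i)) :
    Close m N (∏ i ∈ s, u i) :=
  Finset.prod_induction _ _ (fun _ _ => Close.mul) (Close.one m N) h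

theorem inv (h : Close m N w) (hN : m ∣ N) : Close m N w⁻¹ := fun A hA => by
  have hw := h.val_eq_one hN hA
  have hw0 : w ≠ 0 := fun h0 => by simp [h0] at hw
  rw [show w⁻¹ - 1 = -(w - 1) / w by field_simp; ring, map_div₀, Valuation.map_neg, hw, div_one]
  exact h A hA

theorem div (h : Close m N v) (h' : Close m N w) (hN : m ∣ N) : Close m N (v / w) := by
  rw [div_eq_mul_inv]
  exact h.mul (h'.inv hN)

end Close

/-- An element close to `1` is a local square. -/
theorem exists_sq_of_close {E : IntermediateField ℚ Qb} {x : Qb} (hxE : x ∈ E) {N : ℕ}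
    (hN : 4 * m ∣ N) (hx : Close m N x) {A : ValuationSubring Qb} (hA : IsBadPlace m A) :
    ∃ y ∈ localField E A, y ^ 2 = x := by
  have hζ : IsPrimitiveRoot (-1 : Qb) 2 := IsPrimitiveRoot.neg_one 0 (by norm_num)
  obtain ⟨y, hy, hy2, -⟩ := Duality.Local.exists_pow_eq_of_close hζ (K := E) (A := A)
    (Duality.Local.le_localField hxE) (by
      refine lt_of_le_of_lt (hx A hA) ?_
      obtain ⟨k, rfl⟩ := hN
      rw [← map_pow, show ((-1 : Qb) - 1) ^ 2 = 4 by norm_num,
        show ((4 * m * k : ℕ) : Qb) = 4 * ((m * k : ℕ) : Qb) by push_cast; ring, map_mul]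
      exact mul_lt_of_lt_one_right (zero_lt_iff.2 ((map_ne_zero _).2 (by norm_num)))
        (hA.val_lt_one (dvd_mul_right m k)))
  exact ⟨y, hy, hy2⟩

/-! ### Fourth roots of numbers close to `1` -/

theorem exists_close_fourth {M : IntermediateField ℚ Qb} {x : Qb} (hxM : x ∈ M) {N : ℕ}
    (h2 : 2 ∣ m) (hN : 16 * m ∣ N) (hx : Close m N x) (k : ℕ) :
    ∃ r : Qb, r ∈ M ∧ r ≠ 0 ∧ Close m (4 * m) r ∧ Close m (N * m ^ k) (x / r ^ 4) := by
  induction k with
  | zero => exact ⟨1, one_mem M, one_ne_zero, Close.one m (4 * m), by simpa using hx⟩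
  | succ k ih =>
    obtain ⟨r, hrM, hr0, hr, hxr⟩ := ih
    set e := x / r ^ 4 - 1 with he
    set r' := 1 + e / 4
    have hN' : 16 * m ∣ N * m ^ k := hN.mul_right _
    have hr' : Close m (4 * m) r' := fun A hA => by
      obtain ⟨c, hc⟩ := hN'
      have h := hxr A hA
      rw [hc, show ((16 * m * c : ℕ) : Qb) = 4 * ((4 * m : ℕ) : Qb) * c by push_cast; ring,
        map_mul, map_mul] at h
      rw [show r' - 1 = e / 4 by simp [r'], map_div₀,
        div_le_iff₀ (zero_lt_iff.2 ((map_ne_zero _).2 (by norm_num))), mul_comm (A.valuation _)]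
      exact h.trans (mul_le_of_le_one_right' ((A.valuation_le_one_iff _).2 (natCast_mem A c)))
    obtain ⟨A₂, hA₂⟩ := exists_isBadPlace h2
    have hr'0 : r' ≠ 0 := fun h => by
      have := (hr'.val_eq_one (dvd_mul_left m 4) hA₂)
      simp [h] at this
    refine ⟨r * r', mul_mem hrM ?_, mul_ne_zero hr0 hr'0, hr.mul hr', fun A hA => ?_⟩
    · have : e ∈ M := sub_mem (div_mem hxM (pow_mem hrM 4)) (one_mem M)
      exact add_mem (one_mem M) (div_mem this (natCast_mem M 4))
    have hv' := hr'.val_eq_one (dvd_mul_left m 4) hA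
    have key : x / (r * r') ^ 4 - 1 = -(e * (e / 16) * (6 + e + e * (e / 16))) / r' ^ 4 := by
      rw [show x / (r * r') ^ 4 = (1 + e) / r' ^ 4 by rw [he, mul_pow, div_mul_eq_div_div]; ring]
      rw [div_sub_one (pow_ne_zero _ hr'0)]
      congr 1
      simp only [r']
      ring
    rw [key, map_div₀, Valuation.map_neg, map_pow, hv', one_pow, div_one, map_mul, map_mul,
      show N * m ^ (k + 1) = N * m ^ k * m by ring, Nat.cast_mul, map_mul]
    have h16 : A.valuation (e / 16) ≤ A.valuation (m : Qb) := by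
      obtain ⟨c, hc⟩ := hN'
      have h := hxr A hA
      rw [hc, show ((16 * m * c : ℕ) : Qb) = (m : Qb) * 16 * c by push_cast; ring,
        map_mul, map_mul] at h
      rw [map_div₀, div_le_iff₀ (zero_lt_iff.2 ((map_ne_zero _).2 (by norm_num)))]
      exact h.trans (mul_le_of_le_one_right' ((A.valuation_le_one_iff _).2 (natCast_mem A c)))
    have he1 : A.valuation e ≤ 1 :=
      (hxr A hA).trans ((A.valuation_le_one_iff _).2 (natCast_mem A _))
    have h6 : A.valuation (6 + e + e * (e / 16)) ≤ 1 := by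
      refine A.valuation.map_add_le (A.valuation.map_add_le
        ((A.valuation_le_one_iff _).2 (natCast_mem A 6)) he1) ?_
      rw [map_mul]
      exact mul_le_one' he1 (h16.trans ((A.valuation_le_one_iff _).2 (natCast_mem A m)))
    exact (mul_le_of_le_one_right' h6).trans (mul_le_mul' (hxr A hA) h16)

end FermatAgent.LTG.ClassField
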