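import Fermat.Agent.LT.General.Setup
import Fermat.Agent.LT.Dihedral.QuadData

/-!
# The class field theoretic input of the dihedral form, general bad set

A quadratic extension `M` of `F`, unramified at the primes not over `m`, and a character of order
four on the ideals of `M`, zero at those not prime to `m`, given on principal ideals by a residue
character modulo a power of `m`.
-/

set_option autoImplicit false

noncomputable section

open NumberField IsDedekindDomain
open FermatAgent.LT (IsFrobOver q8Trace)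

namespace FermatAgent.LTG.Dihedral

/-- The data needed for the theta series; `m` is the bad number. -/
structure DihedralData (F : Type) [Field F] [NumberField F] (m : ℕ)
    extends FermatAgent.LT.Dihedral.QuadData F where
  unramified : ∀ q : HeightOneSpectrum (𝓞 F), (m : 𝓞 F) ∉ q.asIdeal →
    (q.asIdeal.map (algebraMap (𝓞 F) (𝓞 M))).IsRadical
  /-- the exponent of the modulus -/
  r : ℕ
  r_ne_zero : r ≠ 0
  /-- the character on integral ideals -/
  ξ : Ideal (𝓞 M) →*₀ ℂ
  ξ_eq_zero : ∀ J : Ideal (𝓞 M), ξ J = 0 ↔ J ⊔ Ideal.span {(m : 𝓞 M)} ≠ ⊤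
  ξ_pow_four : ∀ J : Ideal (𝓞 M), J ⊔ Ideal.span {(m : 𝓞 M)} = ⊤ → ξ J ^ 4 = 1
  ξ_conj : ∀ J : Ideal (𝓞 M), J ⊔ Ideal.span {(m : 𝓞 M)} = ⊤ →
    ξ J * ξ (J.map (NumberField.RingOfIntegers.mapRingHom σ.toAlgHom)) = 1
  ξ_base : ∀ q : HeightOneSpectrum (𝓞 F), (m : 𝓞 F) ∉ q.asIdeal →
    ((q.asIdeal.map (algebraMap (𝓞 F) (𝓞 M))).IsPrime →
        ξ (q.asIdeal.map (algebraMap (𝓞 F) (𝓞 M))) = -1) ∧
      (¬ (q.asIdeal.map (algebraMap (𝓞 F) (𝓞 M))).IsPrime →
        ξ (q.asIdeal.map (algebraMap (𝓞 F) (𝓞 M))) = 1)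
  /-- the residue character -/
  χ : MulChar (𝓞 M ⧸ Ideal.span {((m ^ r : ℕ) : 𝓞 M)}) ℂ
  ξ_principal : ∀ x : 𝓞 M, ξ (Ideal.span {x}) = χ (Ideal.Quotient.mk _ x)
  /-- the character is not its own conjugate -/
  exists_sq_eq_neg_one : ∃ J : Ideal (𝓞 M),
    J ⊔ Ideal.span {(m : 𝓞 M)} = ⊤ ∧ ξ J ^ 2 = -1

namespace DihedralData

variable {F : Type} [Field F] [NumberField F] {m : ℕ} (D : DihedralData F m)

/-- The coefficient at an ideal: the sum of `ξ` over the ideals of that relative norm, the norm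
being taken as `J * σ J` inside `M`. -/
def coeff (I : Ideal (𝓞 F)) : ℂ :=
  ∑ᶠ J : {J : Ideal (𝓞 D.M) //
    J * J.map (NumberField.RingOfIntegers.mapRingHom D.σ.toAlgHom) =
      I.map (algebraMap (𝓞 F) (𝓞 D.M))}, D.ξ J

end DihedralData

/-- Dihedral data whose coefficient at a good place is the trace of the quaternion representation. -/
def HasDihedralData (S : Setup) : Prop :=
  ∃ D : DihedralData S.F S.m, ∀ v : HeightOneSpectrum (𝓞 S.F), (S.m : 𝓞 S.F) ∉ v.asIdeal →
    ∀ σ, IsFrobOver v σ → D.coeff v.asIdeal = (q8Trace (S.ρ σ) : ℂ)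

end FermatAgent.LTG.Dihedral

end
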