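import Fermat.Agent.LT.ClassField.Cyclo
import Fermat.Agent.LT.Base.Residue
import Fermat.Agent.TW.Decomposition

/-!
# Cyclic quartic characters with a general bad set

A character of order four of the Galois group of a totally imaginary field, unramified outside the
primes dividing `m`, with a generator trivial on the `2`-power cyclotomic tower.
-/

set_option autoImplicit false

noncomputable section

open NumberField IsDedekindDomain
open FermatAgent.LT (IsFrobOver exists_isFrobOver)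

namespace FermatAgent.LTG.ClassField

open FermatAgent.Duality.Global (Over IsPlace exists_place ord)
open FermatAgent.LT.ClassField (cycTwo)

local notation "Qb" => AlgebraicClosure ℚ
local notation "GQ" => AlgebraicClosure ℚ ≃ₐ[ℚ] AlgebraicClosure ℚ

attribute [local instance] FermatAgent.RT.isGalois_algClosureRat
  FermatAgent.Duality.Global.numberField_of_finite

theorem natCast_mem_of_dvd {R : Type*} [CommRing R] {I : Ideal R} {l m : ℕ} (h : l ∣ m)
    (hl : (l : R) ∈ I) : (m : R) ∈ I := by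
  obtain ⟨k, rfl⟩ := h
  rw [Nat.cast_mul]
  exact I.mul_mem_right _ hl

/-- The place of a Frobenius element lies over its prime. -/
theorem overOf {L : IntermediateField ℚ Qb} [NumberField L] {A : ValuationSubring Qb}
    {P : HeightOneSpectrum (𝓞 L)}
    (hA : ∀ x : 𝓞 L, x ∈ P.asIdeal ↔ ((x : L) : Qb) ∈ A.nonunits) : Over L A P := by
  obtain ⟨l, hl, hlP⟩ := CFT.exists_prime_mem P
  have hl' : (l : 𝓞 L) ∈ P.asIdeal := by
    have := Ideal.mem_span_singleton_self (l : ℤ)
    rw [hlP.over, Ideal.under, Ideal.mem_comap, map_natCast] at this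
    exact this
  refine ⟨⟨l, hl, ?_⟩, Ideal.ext fun x => ?_⟩
  · have := (hA _).1 hl'
    rw [ValuationSubring.mem_nonunits_iff] at this
    show (l : Qb) ∈ A.nonunits
    rw [ValuationSubring.mem_nonunits_iff]
    simpa using this
  · rw [Ideal.mem_comap, RT.mem_centre_iff, hA, A.mem_nonunits_iff]
    rfl

/-- A character of order four of `G_M`, with `M` totally imaginary, unramified outside the primes
dividing `m`, with a generator trivial on the `2`-tower. -/
structure QuarticChar where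
  /-- the field -/
  M : IntermediateField ℚ Qb
  [finite : FiniteDimensional ℚ M]
  /-- the bad number -/
  m : ℕ
  m_ne_zero : m ≠ 0
  two_dvd : 2 ∣ m
  /-- the character -/
  χ : M.fixingSubgroup →* Multiplicative (ZMod 4)
  level : ∃ L : IntermediateField ℚ Qb, FiniteDimensional ℚ L ∧
    ∀ g : M.fixingSubgroup, (g : GQ) ∈ L.fixingSubgroup → χ g = 1
  totallyComplex : IsTotallyComplex M
  unramified : ∀ l : ℕ, l.Prime → ¬ l ∣ m → ∀ A : ValuationSubring Qb, A.LiesOverPrime l →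
    ∀ g : M.fixingSubgroup, (g : GQ) ∈ A.inertiaSubgroupIn ℚ → χ g = 1
  gen : ∃ σ : M.fixingSubgroup, χ σ = Multiplicative.ofAdd 1 ∧ ∀ n, cycTwo n (σ : GQ) = 1

attribute [instance] QuarticChar.finite

namespace QuarticChar

variable (C : QuarticChar)

/-- The value of the character at a Frobenius element of `P`. -/
def frobVal (P : HeightOneSpectrum (𝓞 C.M)) : ZMod 4 :=
  (C.χ ⟨(exists_isFrobOver C.M P).choose, (exists_isFrobOver C.M P).choose_spec.1⟩).toAdd

theorem chi_eq_of_frobenius {P : HeightOneSpectrum (𝓞 C.M)} (hP : (C.m : 𝓞 C.M) ∉ P.asIdeal)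
    {A : ValuationSubring Qb} (hA : Over C.M A P) {σ τ : GQ} (hσ : σ ∈ C.M.fixingSubgroup)
    (hτ : τ ∈ C.M.fixingSubgroup) {N : ℕ} (hσA : A.IsFrobeniusAt σ N)
    (hτA : A.IsFrobeniusAt τ N) : C.χ ⟨σ, hσ⟩ = C.χ ⟨τ, hτ⟩ := by
  obtain ⟨l, hl, hlA⟩ := hA.1
  have h := C.unramified l hl (fun h => hP (natCast_mem_of_dvd h (hA.natCast_mem hlA))) A hlA
    (⟨σ, hσ⟩⁻¹ * ⟨τ, hτ⟩ : C.M.fixingSubgroup) (TW.inv_mul_mem_inertia hσA hτA)
  rwa [map_mul, map_inv, inv_mul_eq_one] at h

theorem frobVal_eq {P : HeightOneSpectrum (𝓞 C.M)} (hPm : (C.m : 𝓞 C.M) ∉ P.asIdeal) {σ : GQ}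
    (hσ : IsFrobOver P σ) : C.frobVal P = (C.χ ⟨σ, hσ.1⟩).toAdd := by
  obtain ⟨hτ, B, hB, hτB⟩ := (exists_isFrobOver C.M P).choose_spec
  obtain ⟨hσ', A, hA, hσA⟩ := hσ
  obtain ⟨g, hg, hgA⟩ := Duality.Global.exists_smul_eq_of_over (overOf hA) (overOf hB)
  subst hgA
  have h1 := TW.conj_isFrobeniusAt (g := g) hσA
  have hgm : g * σ * g⁻¹ ∈ C.M.fixingSubgroup := mul_mem (mul_mem hg hσ') (inv_mem hg)
  rw [frobVal, C.chi_eq_of_frobenius hPm (overOf hB) hτ hgm hτB h1]
  refine congrArg Multiplicative.toAdd ?_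
  rw [show (⟨g * σ * g⁻¹, hgm⟩ : C.M.fixingSubgroup) = ⟨g, hg⟩ * ⟨σ, hσ'⟩ * ⟨g, hg⟩⁻¹ from rfl,
    map_mul, map_mul, map_inv, mul_inv_cancel_comm]

theorem ne_two_of_not_dvd {l : ℕ} (h : ¬ l ∣ C.m) : l ≠ 2 := fun e => h (e ▸ C.two_dvd)

end QuarticChar

end FermatAgent.LTG.ClassField
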