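import Fermat.Agent.LT.General.Field
import Fermat.Agent.LT.General.ClassField.Quartic
import Fermat.Agent.LT.ClassField.FieldsGroup
import Fermat.Agent.LT.ClassField.TameDifferent

/-!
# The quadratic extension `M / F` and its quartic character, general input

`M` is fixed by the cyclic group generated by the commutator `!![0, -1; 1, 0]` of the quaternion
group; `M / F` is unramified outside the primes over `m`.
-/

set_option autoImplicit false

noncomputable section

open NumberField IsDedekindDomain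
open scoped Pointwise
open FermatAgent.LT.Setup (toTup_pow_eq tpow_eq_one_iff)
open FermatAgent.LT (quaternionSubgroup quaternionSubgroup_conj
  natCard_GL2F3 index_quaternionSubgroup)

namespace FermatAgent.LTG

open FermatAgent.Duality.Global (Over toZB exists_place exists_over)
open FermatAgent.LT.ClassField (ResTrivial resTrivial_of_sq_dvd cycTwo)
open FermatAgent.LTG.ClassField (natCast_mem_of_dvd QuarticChar)

local notation "Qb" => AlgebraicClosure ℚ
local notation "GQ" => AlgebraicClosure ℚ ≃ₐ[ℚ] AlgebraicClosure ℚ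
local notation "G₂" => GL (Fin 2) (ZMod 3)

attribute [local instance] FermatAgent.RT.isGalois_algClosureRat

/-- The generator of order four of the chosen cyclic subgroup of the quaternion group. -/
def quartGen : G₂ := ⟨!![0, -1; 1, 0], !![0, 1; -1, 0], by decide, by decide⟩

theorem orderOf_quartGen : orderOf quartGen = 4 := by
  have := orderOf_eq_prime_pow (p := 2) (n := 1) (x := quartGen) (hnot := by decide)
    (hfin := by decide)
  simpa using this

theorem quartGen_mem_q8 : quartGen ∈ quaternionSubgroup :=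
  (LT.GL2F3.tq8_toTup _).1 (by decide)

theorem quartGen_eq_commutator : ∃ u w : G₂, u * w * u⁻¹ * w⁻¹ = quartGen :=
  ⟨⟨!![1, 1; 0, 1], !![1, -1; 0, 1], by decide, by decide⟩,
    ⟨!![1, 0; 1, 1], !![1, 0; -1, 1], by decide, by decide⟩, by decide⟩

namespace Setup

variable (S : Setup)

/-- The quadratic extension of `F`. -/
def M : IntermediateField ℚ Qb :=
  IntermediateField.fixedField ((Subgroup.zpowers quartGen).comap S.ρ)

instance : FiniteDimensional ℚ S.M := S.finiteDimensional_fixedField _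

theorem mem_fix_M {σ : GQ} : σ ∈ S.M.fixingSubgroup ↔ S.ρ σ ∈ Subgroup.zpowers quartGen :=
  SetLike.ext_iff.1 (InfiniteGalois.fixingSubgroup_fixedField ⟨_, S.isClosed_comap _⟩) σ

theorem M_le_fix {g : GQ} (hg : g ∈ S.M.fixingSubgroup) : S.ρ g ∈ quaternionSubgroup :=
  (Subgroup.zpowers_le.2 quartGen_mem_q8) (S.mem_fix_M.1 hg)

theorem F_le_M : S.F ≤ S.M := by
  intro x hx ⟨g, hg⟩
  exact S.apply_eq_self_of_q8 (S.M_le_fix (S.mem_fix_M.2 hg)) hx

theorem fix_F_of_fix_M {σ : GQ} (h : σ ∈ S.M.fixingSubgroup) : σ ∈ S.F.fixingSubgroup :=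
  IntermediateField.fixingSubgroup_antitone S.F_le_M h

theorem finrank_fixedField_comap (H : Subgroup G₂) :
    Module.finrank ℚ (IntermediateField.fixedField (H.comap S.ρ)) = H.index := by
  rw [IntermediateField.finrank_eq_fixingSubgroup_index,
    InfiniteGalois.fixingSubgroup_fixedField ⟨_, S.isClosed_comap H⟩,
    Subgroup.index_comap_of_surjective _ S.surjective]

theorem finrank_rat_F : Module.finrank ℚ S.F = 6 :=
  (S.finrank_fixedField_comap _).trans index_quaternionSubgroup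

theorem finrank_rat_M : Module.finrank ℚ S.M = 12 := by
  refine (S.finrank_fixedField_comap _).trans ?_
  have h := (Subgroup.zpowers quartGen).card_mul_index
  rw [Nat.card_zpowers, orderOf_quartGen, natCard_GL2F3] at h
  omega

/-- The logarithm on the cyclic subgroup. -/
def quartLog : Subgroup.zpowers quartGen →* Multiplicative (ZMod 4) :=
  (zmodMulEquivOfGenerator (g := (⟨quartGen, Subgroup.mem_zpowers _⟩ :
      Subgroup.zpowers quartGen))
    (fun x => by
      obtain ⟨k, hk⟩ := Subgroup.mem_zpowers_iff.1 x.2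
      exact Subgroup.mem_zpowers_iff.2 ⟨k, Subtype.ext (by simpa using hk)⟩)
    (by rw [Nat.card_zpowers, orderOf_quartGen])).symm.toMonoidHom

theorem quartLog_zpow (k : ℤ) (h : quartGen ^ k ∈ Subgroup.zpowers quartGen) :
    quartLog ⟨quartGen ^ k, h⟩ = Multiplicative.ofAdd (k : ZMod 4) := by
  rw [show (⟨quartGen ^ k, h⟩ : Subgroup.zpowers quartGen) =
    (⟨quartGen, Subgroup.mem_zpowers _⟩ : Subgroup.zpowers quartGen) ^ k from
      Subtype.ext (by simp)]
  exact zmodMulEquivOfGenerator_symm_apply_zpow _ _ k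

/-- The character of order four. -/
def quartChi : S.M.fixingSubgroup →* Multiplicative (ZMod 4) :=
  quartLog.comp ((S.ρ.comp S.M.fixingSubgroup.subtype).codRestrict _
    fun g => S.mem_fix_M.1 g.2)

theorem quartChi_spec {g : S.M.fixingSubgroup} {k : ℤ} (h : S.ρ g = quartGen ^ k) :
    S.quartChi g = Multiplicative.ofAdd (k : ZMod 4) := by
  show quartLog ⟨S.ρ g, _⟩ = _
  rw [← quartLog_zpow k (Subgroup.zpow_mem_zpowers _ k)]
  exact congrArg _ (Subtype.ext h)

theorem quartChi_eq_one_iff {g : S.M.fixingSubgroup} : S.quartChi g = 1 ↔ S.ρ g = 1 := by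
  refine ⟨fun h => ?_, fun h => by rw [S.quartChi_spec (k := 0) (by simpa using h)]; simp⟩
  obtain ⟨k, hk⟩ := Subgroup.mem_zpowers_iff.1 (S.mem_fix_M.1 g.2)
  rw [S.quartChi_spec hk.symm, ← ofAdd_zero, Multiplicative.ofAdd.injective.eq_iff,
    ZMod.intCast_zmod_eq_zero_iff_dvd] at h
  obtain ⟨j, rfl⟩ := h
  rw [← hk, zpow_mul, Nat.cast_ofNat, show (4 : ℤ) = ((4 : ℕ) : ℤ) from rfl, zpow_natCast,
    ← orderOf_quartGen, pow_orderOf_eq_one, _root_.one_zpow]

theorem M_conj {g h : GQ} (hg : g ∈ S.F.fixingSubgroup) (hh : h ∈ S.M.fixingSubgroup) :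
    g⁻¹ * h * g ∈ S.M.fixingSubgroup := by
  rw [S.mem_fix_M] at hh ⊢
  obtain ⟨k, hk⟩ := Subgroup.mem_zpowers_iff.1 hh
  have hc : quartGen ∈ quaternionSubgroup := quartGen_mem_q8
  set a := (S.ρ g)⁻¹ with ha
  have haq : a ∈ quaternionSubgroup := inv_mem (S.mem_fixing_F_iff.1 hg)
  have hconj : a * quartGen * a⁻¹ ∈ Subgroup.zpowers quartGen := by
    rcases LT.GL2F3.tconj_q8 _ ((LT.GL2F3.tq8_toTup _).2 haq) _ ((LT.GL2F3.tq8_toTup _).2 hc) with h' | h'
    · rw [← LT.GL2F3.toTup_mul, ← LT.GL2F3.toTup_mul, LT.GL2F3.toTup_injective.eq_iff, ← Units.val_mul,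
        ← Units.val_mul, ← Units.ext_iff] at h'
      rw [h', mul_inv_cancel_right]
      exact Subgroup.mem_zpowers _
    · rw [toTup_pow_eq, ← LT.GL2F3.toTup_mul, ← LT.GL2F3.toTup_mul, LT.GL2F3.toTup_injective.eq_iff,
        ← Units.val_mul, ← Units.val_mul, ← Units.ext_iff] at h'
      rw [h', mul_inv_cancel_right]
      exact Subgroup.pow_mem _ (Subgroup.mem_zpowers _) _
  rw [map_mul, map_mul, map_inv, ← ha, ← hk, show S.ρ g = a⁻¹ from (inv_inv _).symm, ← conj_zpow]
  exact Subgroup.zpow_mem _ hconj k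

theorem apply_mem_M {g : GQ} (hg : g ∈ S.F.fixingSubgroup) {x : Qb} (hx : x ∈ S.M) :
    g x ∈ S.M := by
  rintro ⟨h, hh⟩
  have e : (g⁻¹ * h * g) x = x :=
    hx ⟨g⁻¹ * h * g, S.mem_fix_M.1 (S.M_conj hg (S.mem_fix_M.2 hh))⟩
  show h (g x) = g x
  rw [AlgEquiv.mul_apply, AlgEquiv.mul_apply] at e
  calc h (g x) = g (g⁻¹ (h (g x))) := (g.apply_symm_apply _).symm
    _ = g x := by rw [e]

/-! ### The extension `M / F` -/

instance instNumberFieldM : NumberField S.M where
  to_finiteDimensional := S.finiteDimensional_fixedField _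

/-- The algebra of `M` over `F`. -/
@[instance_reducible] def algFM : Algebra S.F S.M :=
  (IntermediateField.inclusion S.F_le_M).toRingHom.toAlgebra

attribute [local instance] algFM

theorem finrank_F_M' : Module.finrank S.F S.M = 2 := by
  have : IsScalarTower ℚ S.F S.M := IsScalarTower.of_algebraMap_eq fun q => Subtype.ext rfl
  have h := Module.finrank_mul_finrank ℚ S.F S.M
  rw [S.finrank_rat_F, S.finrank_rat_M] at h
  omega

theorem isGalois_F_M : IsGalois S.F S.M := by
  have : Algebra.IsQuadraticExtension S.F S.M := ⟨S.finrank_F_M'⟩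
  have : FiniteDimensional S.F S.M := Module.finite_of_finrank_eq_succ S.finrank_F_M'
  exact IsGalois.mk

/-- The automorphism of `M / F` induced by an element fixing `F`. -/
def galM (g : GQ) (hg : g ∈ S.F.fixingSubgroup) : S.M ≃ₐ[S.F] S.M where
  toFun x := ⟨g x, S.apply_mem_M hg x.2⟩
  invFun x := ⟨g⁻¹ x, S.apply_mem_M (inv_mem hg) x.2⟩
  left_inv _x := Subtype.ext (g.symm_apply_apply _)
  right_inv _x := Subtype.ext (g.apply_symm_apply _)
  map_mul' _x _y := Subtype.ext (map_mul g _ _)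
  map_add' _x _y := Subtype.ext (map_add g _ _)
  commutes' x := Subtype.ext ((IntermediateField.mem_fixingSubgroup_iff _ g).1 hg _ x.2)

theorem galM_ne_one {g : GQ} (hg : g ∈ S.F.fixingSubgroup) (h : g ∉ S.M.fixingSubgroup) :
    S.galM g hg ≠ 1 := fun he => h ((IntermediateField.mem_fixingSubgroup_iff _ g).2 fun x hx =>
  (congrArg Subtype.val (DFunLike.congr_fun he (⟨x, hx⟩ : S.M)) :))

/-- Conversely, residual triviality gives such an element. -/
theorem exists_inertia_of_resTrivial {A : ValuationSubring Qb} {P : HeightOneSpectrum (𝓞 S.M)}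
    (hA : Duality.Global.Over S.M A P) (h : ResTrivial (K := S.F) P) :
    ∃ i ∈ A.inertiaSubgroupIn ℚ, i ∈ S.F.fixingSubgroup ∧ i ∉ S.M.fixingSubgroup := by
  have : IsGalois S.F S.M := S.isGalois_F_M
  have : FiniteDimensional S.F S.M := Module.finite_of_finrank_eq_succ S.finrank_F_M'
  obtain ⟨γ, hγ⟩ : ∃ γ : S.M ≃ₐ[S.F] S.M, γ ≠ 1 := by
    by_contra! hall
    have hc : Nat.card (S.M ≃ₐ[S.F] S.M) = 2 :=
      (IsGalois.card_aut_eq_finrank _ _).trans S.finrank_F_M'
    have : Subsingleton (S.M ≃ₐ[S.F] S.M) := ⟨fun a b => (hall a).trans (hall b).symm⟩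
    rw [Nat.card_of_subsingleton (1 : S.M ≃ₐ[S.F] S.M)] at hc
    omega
  obtain ⟨q, hq, hqA⟩ := hA.1
  obtain ⟨τ, hτ, hτγ⟩ := ExtVanish.exists_inertia_lift_at S.M.val hq hqA P.asIdeal
    (fun x => (hA.mem_iff x).trans A.mem_nonunits_iff.symm)
    (AlgEquiv.ofRingEquiv (f := γ.toRingEquiv) fun r => map_ratCast γ r) fun x => h γ x
  refine ⟨τ, hτ, (IntermediateField.mem_fixingSubgroup_iff _ τ).2 fun x hx => ?_, fun hτM => ?_⟩
  · exact (hτγ (IntermediateField.inclusion S.F_le_M ⟨x, hx⟩)).trans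
      (congrArg Subtype.val (γ.commutes ⟨x, hx⟩))
  · exact hγ (AlgEquiv.ext fun x => Subtype.ext ((hτγ x).symm.trans
      ((IntermediateField.mem_fixingSubgroup_iff _ τ).1 hτM _ x.2)))

instance instAlgebraFM : Algebra S.F S.M := S.algFM

theorem finrank_F_M : Module.finrank S.F S.M = 2 := S.finrank_F_M'

theorem over_under {A : ValuationSubring Qb} {P : HeightOneSpectrum (𝓞 S.M)} (h : Over S.M A P) :
    Over S.F A (CFT.underPrime S.F S.M P) := by
  refine ⟨h.1, Ideal.ext fun x => ?_⟩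
  rw [Ideal.mem_comap, CFT.underPrime_asIdeal, Ideal.under, Ideal.mem_comap, ← h.2, Ideal.mem_comap]
  rfl

/-- Away from `m` no prime of `M` is ramified over `F`. -/
theorem not_sq_dvd (Q : HeightOneSpectrum (𝓞 S.M)) (hQm : (S.m : 𝓞 S.M) ∉ Q.asIdeal) :
    ¬ Q.asIdeal ^ 2 ∣
      (CFT.underPrime S.F S.M Q).asIdeal.map (algebraMap (𝓞 S.F) (𝓞 S.M)) := by
  have : IsGalois S.F S.M := S.isGalois_F_M
  intro hdvd
  obtain ⟨A, hA⟩ := exists_place Q
  obtain ⟨l, hl, hlA⟩ := hA.1
  obtain ⟨i, hi, hiF, hiM⟩ := S.exists_inertia_of_resTrivial hA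
    (resTrivial_of_sq_dvd S.finrank_F_M Q (by norm_num) hdvd)
  have hlm : ¬ l ∣ S.m := fun h => hQm (natCast_mem_of_dvd h (hA.natCast_mem hlA))
  refine hiM (S.mem_fix_M.2 ?_)
  rw [S.unramified l hl hlm A hlA i hi]
  exact one_mem _

/-- `M / F` is unramified outside the primes over `m`. -/
theorem map_isRadical (q : HeightOneSpectrum (𝓞 S.F)) (hq : (S.m : 𝓞 S.F) ∉ q.asIdeal) :
    (q.asIdeal.map (algebraMap (𝓞 S.F) (𝓞 S.M))).IsRadical := by
  set I := q.asIdeal.map (algebraMap (𝓞 S.F) (𝓞 S.M))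
  have hI : I ≠ ⊥ := CFT.ideal_map_ne_bot q.ne_bot
  have hsf : Squarefree I := by
    intro J hJ
    by_contra hunit
    obtain ⟨Q, hQ, hJQ⟩ := Ideal.exists_le_maximal J fun h => hunit (Ideal.isUnit_iff.2 h)
    have hIQ : I ≤ Q * Q := (Ideal.dvd_iff_le.1 hJ).trans (Ideal.mul_mono hJQ hJQ)
    have hQ0 : Q ≠ ⊥ := fun h => hI (le_bot_iff.1 (hIQ.trans (by rw [h]; simp)))
    let P : HeightOneSpectrum (𝓞 S.M) := ⟨Q, hQ.isPrime, hQ0⟩
    have hunder : CFT.underPrime S.F S.M P = q := HeightOneSpectrum.ext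
      (q.isMaximal.eq_of_le (CFT.underPrime S.F S.M P).isPrime.ne_top
        (Ideal.map_le_iff_le_comap.1 (hIQ.trans Ideal.mul_le_left))).symm
    refine S.not_sq_dvd P (fun h => hq ?_) (by rw [hunder, pow_two]; exact Ideal.dvd_iff_le.2 hIQ)
    rw [← hunder, CFT.underPrime_asIdeal, Ideal.under, Ideal.mem_comap, map_natCast]
    exact h
  intro x hx
  obtain ⟨n, hn⟩ := Ideal.mem_radical_iff.1 hx
  rw [← Ideal.dvd_span_singleton]
  exact hsf.isRadical n _ (by rw [Ideal.span_singleton_pow]; exact Ideal.dvd_span_singleton.2 hn)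

/-- The quartic character of a setup. -/
def quartic : QuarticChar where
  M := S.M
  m := S.m
  m_ne_zero := S.m_ne_zero
  two_dvd := (by norm_num : 2 ∣ 6).trans S.six_dvd
  χ := S.quartChi
  level := by
    obtain ⟨E, hE, hEker⟩ := S.finiteLevel
    exact ⟨E, hE, fun g hg => S.quartChi_eq_one_iff.2
      (hEker g ((IntermediateField.mem_fixingSubgroup_iff E g).1 hg))⟩
  totallyComplex := ⟨fun w => by
    rw [← InfinitePlace.not_isReal_iff_isComplex]
    intro hw
    exact InfinitePlace.not_isReal_iff_isComplex.2 (S.instIsTotallyComplexF.isComplex _)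
      (hw.comap (IntermediateField.inclusion S.F_le_M).toRingHom)⟩
  unramified := fun l hl hlm A hA g hg =>
    S.quartChi_eq_one_iff.2 (S.unramified l hl hlm A hA g hg)
  gen := by
    obtain ⟨u, w, huw⟩ := quartGen_eq_commutator
    obtain ⟨a, ha⟩ := S.surjective u
    obtain ⟨b, hb⟩ := S.surjective w
    have hρ : S.ρ (a * b * a⁻¹ * b⁻¹) = quartGen := by
      simp only [map_mul, map_inv, ha, hb, huw]
    refine ⟨⟨a * b * a⁻¹ * b⁻¹, S.mem_fix_M.2 (by rw [hρ]; exact Subgroup.mem_zpowers _)⟩, ?_,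
      fun n => ?_⟩
    · rw [S.quartChi_spec (k := 1) (by rw [zpow_one]; exact hρ)]
      simp
    · show cycTwo n (a * b * a⁻¹ * b⁻¹) = 1
      simp only [map_mul, map_inv, mul_comm (cycTwo n a), mul_inv_cancel_right, mul_inv_cancel]

end Setup

end FermatAgent.LTG
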