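import Fermat.Agent.LT.ClassField.Frob
import Fermat.Agent.LT.General.ClassField.Field

/-!
# Frobenius values in the quadratic extension, general input

Conjugation inverts the quartic character; a prime of `F` not over `m` is either inert, with value
`2`, or splits into two primes with opposite values.
-/

set_option autoImplicit false

noncomputable section

open NumberField IsDedekindDomain
open scoped Pointwise
open FermatAgent.LT (IsFrobOver exists_frobenius_over q8Trace quaternionSubgroup)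
open FermatAgent.LT.Setup (toTup_pow_eq tpow_eq_one_iff)

namespace FermatAgent.LTG

open FermatAgent.Duality.Global (Over IsPlace exists_over exists_place exists_smul_eq_of_over)
open FermatAgent.LT.ClassField (exists_pow_eq isFrobeniusAt_pow)
open FermatAgent.LTG.ClassField (natCast_mem_of_dvd overOf)

local notation "Qb" => AlgebraicClosure ℚ
local notation "GQ" => AlgebraicClosure ℚ ≃ₐ[ℚ] AlgebraicClosure ℚ

attribute [local instance] FermatAgent.RT.isGalois_algClosureRat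

theorem quartGen_sq_ne_one : quartGen ^ 2 ≠ 1 := by decide

theorem quartGen_pow_four : quartGen ^ 4 = 1 := by decide

namespace Setup

variable (S : Setup)

theorem exists_gal : ∃ g : GQ, g ∈ S.F.fixingSubgroup ∧ g ∉ S.M.fixingSubgroup := by
  by_contra! h
  have hle : S.M ≤ S.F := by
    rw [← InfiniteGalois.fixedField_fixingSubgroup S.M, ← InfiniteGalois.fixedField_fixingSubgroup S.F]
    exact IntermediateField.fixedField_antitone h
  have h2 := S.finrank_rat_M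
  rw [le_antisymm hle S.F_le_M] at h2
  have := S.finrank_rat_F
  omega

/-- The elements of `G_F` outside `G_M` invert the generator and square to its square. -/
theorem anticomm {g : GQ} (hg : g ∈ S.F.fixingSubgroup) (hgM : g ∉ S.M.fixingSubgroup) :
    S.ρ g * quartGen = quartGen⁻¹ * S.ρ g ∧ S.ρ g ^ 2 = quartGen ^ 2 ∧
      S.ρ g * quartGen ≠ quartGen * S.ρ g := by
  have hinj : ∀ a b : GL (Fin 2) (ZMod 3),
      LT.GL2F3.toTup (a : Matrix (Fin 2) (Fin 2) (ZMod 3)) = LT.GL2F3.toTup (b : Matrix _ _ _) ↔ a = b :=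
    fun a b => LT.GL2F3.toTup_injective.eq_iff.trans Units.ext_iff.symm
  obtain ⟨h1, h2, hm0⟩ := LT.GL2F3.tq8_anticomm _
    ((LT.GL2F3.tq8_toTup _).2 (S.mem_fixing_F_iff.1 hg)) _ ((LT.GL2F3.tq8_toTup _).2 quartGen_mem_q8)
    (fun h => quartGen_sq_ne_one ((tpow_eq_one_iff _ 2).1 h))
    (fun k hk => hgM (S.mem_fix_M.2 (by
      rw [toTup_pow_eq, hinj] at hk
      rw [hk]
      exact Subgroup.pow_mem _ (Subgroup.mem_zpowers _) _)))
  rw [toTup_pow_eq, ← LT.GL2F3.toTup_mul, ← LT.GL2F3.toTup_mul, ← Units.val_mul, ← Units.val_mul, hinj] at h1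
  rw [toTup_pow_eq, toTup_pow_eq, hinj] at h2
  rw [← LT.GL2F3.toTup_mul, ← LT.GL2F3.toTup_mul, ← Units.val_mul, ← Units.val_mul, Ne, hinj] at hm0
  refine ⟨?_, h2, hm0⟩
  rw [h1, eq_inv_of_mul_eq_one_left (a := quartGen ^ 3) (b := quartGen)
    (by rw [← pow_succ, quartGen_pow_four])]

/-- Conjugation inverts the character. -/
theorem quartChi_conj {g : GQ} (hg : g ∈ S.F.fixingSubgroup) (hgM : g ∉ S.M.fixingSubgroup)
    (τ : S.M.fixingSubgroup) (h : g * τ * g⁻¹ ∈ S.M.fixingSubgroup) :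
    S.quartChi ⟨g * τ * g⁻¹, h⟩ = (S.quartChi τ)⁻¹ := by
  obtain ⟨k, hk⟩ := Subgroup.mem_zpowers_iff.1 (S.mem_fix_M.1 τ.2)
  obtain ⟨h1, -, -⟩ := S.anticomm hg hgM
  have e : S.ρ g * quartGen * (S.ρ g)⁻¹ = quartGen⁻¹ := by rw [h1, mul_inv_cancel_right]
  rw [S.quartChi_spec (g := τ) hk.symm, S.quartChi_spec (k := -k) (by
    show S.ρ (g * τ * g⁻¹) = _
    rw [map_mul, map_mul, map_inv, ← hk, ← conj_zpow, e, inv_zpow']), Int.cast_neg, ofAdd_neg]

open scoped Classical in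
/-- The quadratic character of `M / F`. -/
def eps : S.F.fixingSubgroup →* Multiplicative (ZMod 2) where
  toFun g := if S.ρ g * quartGen = quartGen * S.ρ g then 1 else Multiplicative.ofAdd 1
  map_one' := by simp
  map_mul' g h := by
    have key : ∀ a : S.F.fixingSubgroup, S.ρ a * quartGen ≠ quartGen * S.ρ a →
        S.ρ a * quartGen = quartGen⁻¹ * S.ρ a ∧ S.ρ a * quartGen⁻¹ = quartGen * S.ρ a := by
      intro a ha
      have h1 := (S.anticomm a.2 fun hM => ha ?_).1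
      · refine ⟨h1, ?_⟩
        rw [eq_comm, ← eq_mul_inv_iff_mul_eq.symm, mul_assoc, h1, mul_inv_cancel_left]
      · obtain ⟨k, hk⟩ := Subgroup.mem_zpowers_iff.1 (S.mem_fix_M.1 hM)
        rw [← hk]
        exact ((Commute.refl quartGen).zpow_left k).eq
    have hmul : S.ρ ((g * h : S.F.fixingSubgroup) : GQ) = S.ρ g * S.ρ h := map_mul _ _ _
    have hne : quartGen⁻¹ ≠ quartGen := fun e => quartGen_sq_ne_one (by
      rw [pow_two]; nth_rewrite 1 [← e]; exact inv_mul_cancel _)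
    rw [hmul]
    by_cases hg : S.ρ g * quartGen = quartGen * S.ρ g <;>
      by_cases hh : S.ρ h * quartGen = quartGen * S.ρ h
    · rw [if_pos hg, if_pos hh, if_pos, one_mul]
      rw [mul_assoc, hh, ← mul_assoc, hg, mul_assoc]
    · rw [if_pos hg, if_neg hh, if_neg, one_mul]
      have hg' : S.ρ g * quartGen⁻¹ = quartGen⁻¹ * S.ρ g :=
        ((show Commute (S.ρ g) quartGen from hg).inv_right).eq
      rw [mul_assoc, (key h hh).1, ← mul_assoc, hg', mul_assoc]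
      exact fun e => hne (mul_right_cancel e)
    · rw [if_neg hg, if_pos hh, if_neg, mul_one]
      rw [mul_assoc, hh, ← mul_assoc, (key g hg).1, mul_assoc]
      exact fun e => hne (mul_right_cancel e)
    · rw [if_neg hg, if_neg hh, if_pos, ← ofAdd_add, show (1 : ZMod 2) + 1 = 0 by decide, ofAdd_zero]
      rw [mul_assoc, (key h hh).1, ← mul_assoc, (key g hg).2, mul_assoc]

theorem eps_eq_one_iff (g : S.F.fixingSubgroup) : S.eps g = 1 ↔ (g : GQ) ∈ S.M.fixingSubgroup := by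
  constructor
  · intro h
    by_contra hM
    have := (S.anticomm g.2 hM).2.2
    rw [show S.eps g = Multiplicative.ofAdd 1 from if_neg this] at h
    exact absurd h (by decide)
  · intro hM
    obtain ⟨k, hk⟩ := Subgroup.mem_zpowers_iff.1 (S.mem_fix_M.1 hM)
    refine if_pos ?_
    rw [← hk]
    exact ((Commute.refl quartGen).zpow_left k).eq

theorem exists_level_eps : ∃ L : IntermediateField ℚ Qb, FiniteDimensional ℚ L ∧
    ∀ h : S.F.fixingSubgroup, (h : GQ) ∈ L.fixingSubgroup → S.eps h = 1 :=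
  ⟨S.M, inferInstance, fun h hh => (S.eps_eq_one_iff h).2 hh⟩

theorem eps_inertia (l : ℕ) (hl : l.Prime) (hlm : ¬ l ∣ S.m) (A : ValuationSubring Qb)
    (hlA : A.LiesOverPrime l) (i : S.F.fixingSubgroup) (hi : (i : GQ) ∈ A.inertiaSubgroupIn ℚ) :
    S.eps i = 1 :=
  (S.eps_eq_one_iff i).2 (S.mem_fix_M.2 (by
    rw [S.unramified l hl hlm A hlA i hi]; exact one_mem _))

/-- The map induced on the integers of `M`. -/
abbrev sigmaO {g : GQ} (hg : g ∈ S.F.fixingSubgroup) : 𝓞 S.M →+* 𝓞 S.M :=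
  NumberField.RingOfIntegers.mapRingHom (RingHomClass.toRingHom (S.galM g hg).toAlgHom)

theorem coe_sigmaO {g : GQ} (hg : g ∈ S.F.fixingSubgroup) (x : 𝓞 S.M) :
    ((((S.sigmaO hg) x : 𝓞 S.M) : S.M) : Qb) = g ((x : S.M) : Qb) := rfl

theorem sigmaO_sigmaO {g : GQ} (hg : g ∈ S.F.fixingSubgroup) (hgM : g ∉ S.M.fixingSubgroup)
    (x : 𝓞 S.M) : S.sigmaO hg (S.sigmaO hg x) = x := by
  have hmem : g * g ∈ S.M.fixingSubgroup := S.mem_fix_M.2 (by
    rw [map_mul, ← pow_two, (S.anticomm hg hgM).2.1]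
    exact Subgroup.pow_mem _ (Subgroup.mem_zpowers _) _)
  refine RingOfIntegers.coe_injective (Subtype.ext ?_)
  rw [coe_sigmaO, coe_sigmaO, ← AlgEquiv.mul_apply]
  exact hmem ⟨_, (x : S.M).2⟩

theorem sigmaO_surjective {g : GQ} (hg : g ∈ S.F.fixingSubgroup) (hgM : g ∉ S.M.fixingSubgroup) :
    Function.Surjective (S.sigmaO hg) := fun x => ⟨_, S.sigmaO_sigmaO hg hgM x⟩

theorem map_map_sigmaO {g : GQ} (hg : g ∈ S.F.fixingSubgroup) (hgM : g ∉ S.M.fixingSubgroup)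
    (J : Ideal (𝓞 S.M)) : (J.map (S.sigmaO hg)).map (S.sigmaO hg) = J := by
  rw [Ideal.map_map, show (S.sigmaO hg).comp (S.sigmaO hg) = RingHom.id _ from
    RingHom.ext (S.sigmaO_sigmaO hg hgM), Ideal.map_id]

theorem mem_map_sigmaO {g : GQ} (hg : g ∈ S.F.fixingSubgroup) (hgM : g ∉ S.M.fixingSubgroup)
    (J : Ideal (𝓞 S.M)) (x : 𝓞 S.M) : x ∈ J.map (S.sigmaO hg) ↔ S.sigmaO hg x ∈ J := by
  rw [Ideal.mem_map_iff_of_surjective _ (S.sigmaO_surjective hg hgM)]
  constructor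
  · rintro ⟨y, hy, rfl⟩
    rwa [S.sigmaO_sigmaO hg hgM]
  · exact fun h => ⟨_, h, S.sigmaO_sigmaO hg hgM x⟩

/-- The conjugate prime. -/
def conjPrime {g : GQ} (hg : g ∈ S.F.fixingSubgroup) (hgM : g ∉ S.M.fixingSubgroup)
    (Q : HeightOneSpectrum (𝓞 S.M)) : HeightOneSpectrum (𝓞 S.M) where
  asIdeal := Q.asIdeal.map (S.sigmaO hg)
  isPrime := by
    have h : Q.asIdeal.map (S.sigmaO hg) = Q.asIdeal.comap (S.sigmaO hg) :=
      Ideal.ext fun x => by rw [S.mem_map_sigmaO hg hgM, Ideal.mem_comap]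
    rw [h]
    exact Ideal.IsPrime.comap _
  ne_bot h := Q.ne_bot (by rw [← S.map_map_sigmaO hg hgM Q.asIdeal, h, Ideal.map_bot])

theorem over_conjPrime {g : GQ} (hg : g ∈ S.F.fixingSubgroup) (hgM : g ∉ S.M.fixingSubgroup)
    {A : ValuationSubring Qb} {Q : HeightOneSpectrum (𝓞 S.M)} (hA : Over S.M A Q) :
    Over S.M (g • A) (S.conjPrime hg hgM Q) := by
  refine ⟨hA.1.smul g, Ideal.ext fun x => ?_⟩
  rw [Ideal.mem_comap, Duality.Global.centre_smul, Ideal.mem_pointwise_smul_iff_inv_smul_mem]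
  show _ ↔ x ∈ Q.asIdeal.map (S.sigmaO hg)
  rw [S.mem_map_sigmaO hg hgM, ← hA.2, Ideal.mem_comap]
  have e : g⁻¹ • Duality.Global.toZB S.M x = Duality.Global.toZB S.M (S.sigmaO hg x) := by
    refine Subtype.ext ?_
    show g⁻¹ ((x : S.M) : Qb) = g ((x : S.M) : Qb)
    have hmem : g * g ∈ S.M.fixingSubgroup := S.mem_fix_M.2 (by
      rw [map_mul, ← pow_two, (S.anticomm hg hgM).2.1]
      exact Subgroup.pow_mem _ (Subgroup.mem_zpowers _) _)
    have h := congrArg (fun t => g⁻¹ t) (show (g * g) ((x : S.M) : Qb) = ((x : S.M) : Qb) from hmem ⟨_, (x : S.M).2⟩)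
    exact h.symm.trans (g.symm_apply_apply _)
  rw [e]

/-- The Frobenius value of a prime of `M` is the character at a Frobenius element over it. -/
theorem frobVal_of_place {Q : HeightOneSpectrum (𝓞 S.M)} (hm0 : (S.m : 𝓞 S.M) ∉ Q.asIdeal)
    {A : ValuationSubring Qb} (hA : Over S.M A Q) {τ : GQ} (hτ : τ ∈ S.M.fixingSubgroup)
    (hτA : A.IsFrobeniusAt τ (Ideal.absNorm Q.asIdeal)) :
    S.quartic.frobVal Q = (S.quartChi ⟨τ, hτ⟩).toAdd :=
  S.quartic.frobVal_eq hm0 ⟨hτ, A, fun x => (hA.mem_iff x).trans A.mem_nonunits_iff.symm, hτA⟩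

theorem bad_mem_iff {L : IntermediateField ℚ Qb} [NumberField L] {A : ValuationSubring Qb}
    {P : HeightOneSpectrum (𝓞 L)} (hA : Over L A P) :
    (S.m : 𝓞 L) ∈ P.asIdeal ↔ A.valuation (S.m : Qb) < 1 := by
  rw [hA.mem_iff, show ((((S.m : 𝓞 L) : L)) : Qb) = (S.m : Qb) from
    map_natCast ((algebraMap L Qb).comp (algebraMap (𝓞 L) L)) S.m]

theorem conjPrime_frobVal {g : GQ} (hg : g ∈ S.F.fixingSubgroup) (hgM : g ∉ S.M.fixingSubgroup)
    {Q : HeightOneSpectrum (𝓞 S.M)} (hm0 : (S.m : 𝓞 S.M) ∉ Q.asIdeal) :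
    (S.m : 𝓞 S.M) ∉ (S.conjPrime hg hgM Q).asIdeal ∧
      Ideal.absNorm (S.conjPrime hg hgM Q).asIdeal = Ideal.absNorm Q.asIdeal ∧
      S.quartic.frobVal (S.conjPrime hg hgM Q) = -S.quartic.frobVal Q := by
  have hm' : (S.m : 𝓞 S.M) ∉ (S.conjPrime hg hgM Q).asIdeal := by
    show (S.m : 𝓞 S.M) ∉ Q.asIdeal.map (S.sigmaO hg)
    rwa [S.mem_map_sigmaO hg hgM, map_natCast]
  have hN : Ideal.absNorm (S.conjPrime hg hgM Q).asIdeal = Ideal.absNorm Q.asIdeal := by
    show Ideal.absNorm (Q.asIdeal.map (S.sigmaO hg)) = _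
    let e : 𝓞 S.M ≃+* 𝓞 S.M := RingEquiv.ofBijective (S.sigmaO hg)
      ⟨fun a b h => by simpa [S.sigmaO_sigmaO hg hgM] using congrArg (S.sigmaO hg) h,
        S.sigmaO_surjective hg hgM⟩
    rw [Ideal.absNorm_apply, Ideal.absNorm_apply, Submodule.cardQuot_apply, Submodule.cardQuot_apply]
    exact Nat.card_congr (Ideal.quotientEquiv _ _ e rfl).symm.toEquiv
  refine ⟨hm', hN, ?_⟩
  obtain ⟨A, hA⟩ := exists_place Q
  obtain ⟨τ, hτ, -, -, hτF⟩ := exists_frobenius_over S.M hA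
  have hconj := TW.conj_isFrobeniusAt (g := g) hτF
  rw [← hN] at hconj
  have hgm : g * τ * g⁻¹ ∈ S.M.fixingSubgroup := by
    have := S.M_conj (g := g⁻¹) (inv_mem hg) hτ
    rwa [inv_inv] at this
  rw [S.frobVal_of_place hm' (S.over_conjPrime hg hgM hA) hgm hconj,
    S.frobVal_of_place hm0 hA hτ hτF, S.quartChi_conj hg hgM ⟨τ, hτ⟩ hgm, toAdd_inv]

theorem absNorm_map (I : Ideal (𝓞 S.F)) :
    Ideal.absNorm (I.map (algebraMap (𝓞 S.F) (𝓞 S.M))) = Ideal.absNorm I ^ 2 := by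
  rw [← Ideal.absNorm_relNorm (𝓞 S.F), Ideal.relNorm_algebraMap, map_pow,
    ← IsFractionRing.finrank_eq (𝓞 S.F) S.F (𝓞 S.M) S.M, S.finrank_F_M]

/-- **The decomposition of a prime of `F`.** -/
theorem splitting {g : GQ} (hg : g ∈ S.F.fixingSubgroup) (hgM : g ∉ S.M.fixingSubgroup)
    {q : HeightOneSpectrum (𝓞 S.F)} (hm0 : (S.m : 𝓞 S.F) ∉ q.asIdeal) {A : ValuationSubring Qb}
    (hA : Over S.F A q) {τ : GQ} (hτ : τ ∈ S.F.fixingSubgroup)
    (hτA : A.IsFrobeniusAt τ (Ideal.absNorm q.asIdeal)) :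
    ∃ Q : HeightOneSpectrum (𝓞 S.M), (S.m : 𝓞 S.M) ∉ Q.asIdeal ∧
      ((q.asIdeal.map (algebraMap (𝓞 S.F) (𝓞 S.M)) = Q.asIdeal ∧ τ ∉ S.M.fixingSubgroup ∧
          S.quartic.frobVal Q = 2) ∨
        (S.conjPrime hg hgM Q ≠ Q ∧ q.asIdeal.map (algebraMap (𝓞 S.F) (𝓞 S.M)) =
            Q.asIdeal * (S.conjPrime hg hgM Q).asIdeal ∧
          ∃ hτM : τ ∈ S.M.fixingSubgroup, S.quartic.frobVal Q = (S.quartChi ⟨τ, hτM⟩).toAdd)) := by
  classical
  obtain ⟨Q, hQ⟩ := exists_over (K := S.M) hA.1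
  have hunder : CFT.underPrime S.F S.M Q = q := (S.over_under hQ).eq hA
  have hQm : (S.m : 𝓞 S.M) ∉ Q.asIdeal := fun h =>
    hm0 ((S.bad_mem_iff hA).2 ((S.bad_mem_iff hQ).1 h))
  refine ⟨Q, hQm, ?_⟩
  obtain ⟨l, hl, hlA⟩ := hA.1
  have hlm : ¬ l ∣ S.m := fun h => hm0 (natCast_mem_of_dvd h (hA.natCast_mem hlA))
  set σQ := S.conjPrime hg hgM Q
  set I := q.asIdeal.map (algebraMap (𝓞 S.F) (𝓞 S.M))
  have hI : I ≠ ⊥ := CFT.ideal_map_ne_bot q.ne_bot
  have hIQ : I ≤ Q.asIdeal := by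
    refine Ideal.map_le_iff_le_comap.2 (le_of_eq ?_)
    rw [← hunder, CFT.underPrime_asIdeal, Ideal.under]
  -- all primes over `q`
  have hall : ∀ Q' : HeightOneSpectrum (𝓞 S.M), I ≤ Q'.asIdeal → Q' = Q ∨ Q' = σQ := by
    intro Q' hle
    obtain ⟨B, hB⟩ := exists_place Q'
    have hu : CFT.underPrime S.F S.M Q' = q := HeightOneSpectrum.ext
      (q.isMaximal.eq_of_le (CFT.underPrime S.F S.M Q').isPrime.ne_top
        (Ideal.map_le_iff_le_comap.1 hle)).symm
    have hBq : Over S.F B q := hu ▸ S.over_under hB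
    obtain ⟨h, hh, hhB⟩ := exists_smul_eq_of_over hA hBq
    by_cases hhM : h ∈ S.M.fixingSubgroup
    · left
      exact hB.eq (hhB ▸ hQ.smul hhM)
    · right
      have hu' : h * g⁻¹ ∈ S.M.fixingSubgroup := by
        by_contra hne
        have h1 : S.eps ⟨h * g⁻¹, mul_mem hh (inv_mem hg)⟩ ≠ 1 := fun e =>
          hne ((S.eps_eq_one_iff _).1 e)
        have h2 : S.eps ⟨h, hh⟩ ≠ 1 := fun e => hhM ((S.eps_eq_one_iff _).1 e)
        have hm' : S.eps ⟨g, hg⟩ ≠ 1 := fun e => hgM ((S.eps_eq_one_iff _).1 e)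
        rw [show (⟨h * g⁻¹, mul_mem hh (inv_mem hg)⟩ : S.F.fixingSubgroup) = ⟨h, hh⟩ * ⟨g, hg⟩⁻¹ from
          rfl, map_mul, map_inv] at h1
        revert h1 h2 hm'
        generalize S.eps ⟨h, hh⟩ = a
        generalize S.eps ⟨g, hg⟩ = b
        revert a b
        decide
      have h1 := (S.over_conjPrime hg hgM hQ).smul hu'
      rw [← mul_smul, inv_mul_cancel_right, ← hhB] at h1
      exact hB.eq h1
  have hIσ : I ≤ σQ.asIdeal := by
    have h1 : I.map (S.sigmaO hg) ≤ σQ.asIdeal := Ideal.map_mono hIQ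
    refine le_trans (le_of_eq ?_) h1
    rw [Ideal.map_map, show (S.sigmaO hg).comp (algebraMap (𝓞 S.F) (𝓞 S.M)) =
      algebraMap (𝓞 S.F) (𝓞 S.M) from RingHom.ext fun x =>
        RingOfIntegers.coe_injective ((S.galM g hg).commutes (x : S.F))]
  have hrad := S.map_isRadical q hm0
  have hdec : I = sInf {J : Ideal (𝓞 S.M) | I ≤ J ∧ J.IsPrime} := by
    rw [← Ideal.radical_eq_sInf, hrad.radical]
  have hle : Q.asIdeal ⊓ σQ.asIdeal ≤ I := by
    rw [hdec]
    refine le_sInf ?_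
    rintro J ⟨hJ, hJp⟩
    have hJ0 : J ≠ ⊥ := fun h => hI (le_bot_iff.1 (h ▸ hJ))
    rcases hall ⟨J, hJp, hJ0⟩ hJ with e | e
    · rw [← e]; exact inf_le_left
    · rw [← e]; exact inf_le_right
  obtain ⟨u, hu, hud, -, huF⟩ := exists_frobenius_over S.M hQ
  by_cases heq : σQ = Q
  · -- inert
    left
    have hIeq : I = Q.asIdeal := le_antisymm hIQ (by simpa [heq] using hle)
    have hτM : τ ∉ S.M.fixingSubgroup := by
      intro hτM
      have h1 := S.over_conjPrime hg hgM hQ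
      rw [show S.conjPrime hg hgM Q = Q from heq] at h1
      obtain ⟨g₀, hg₀, hgA⟩ := exists_smul_eq_of_over hQ h1
      have hd : g₀⁻¹ * g ∈ A.decompositionSubgroup ℚ := by
        show (g₀⁻¹ * g) • A = A
        rw [mul_smul, hgA, inv_smul_smul]
      have hdF : g₀⁻¹ * g ∈ S.F.fixingSubgroup := mul_mem (inv_mem (S.fix_F_of_fix_M hg₀)) hg
      obtain ⟨j, hj⟩ := exists_pow_eq S.eps S.exists_level_eps
        (S.eps_inertia l hl hlm A hlA) hA (g := ⟨τ, hτ⟩) hτA (d := ⟨_, hdF⟩) hd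
      rw [(S.eps_eq_one_iff ⟨τ, hτ⟩).2 hτM, one_pow, S.eps_eq_one_iff] at hj
      exact hgM (by simpa using mul_mem hg₀ hj)
    refine ⟨hIeq, hτM, ?_⟩
    have hsq : A.IsFrobeniusAt (τ ^ 2) (Ideal.absNorm Q.asIdeal) := by
      rw [← hIeq, S.absNorm_map]
      exact isFrobeniusAt_pow hτA 2
    obtain ⟨-, h2, -⟩ := S.anticomm hτ hτM
    have hτ2 : τ ^ 2 ∈ S.M.fixingSubgroup := S.mem_fix_M.2 (by
      rw [map_pow, h2]
      exact Subgroup.pow_mem _ (Subgroup.mem_zpowers _) _)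
    rw [S.frobVal_of_place hQm hQ hτ2 hsq, S.quartChi_spec (g := ⟨τ ^ 2, hτ2⟩) (k := 2) (by
      rw [show ((⟨τ ^ 2, hτ2⟩ : S.M.fixingSubgroup) : GQ) = τ ^ 2 from rfl, map_pow, h2]
      rfl)]
    rfl
  · -- split
    right
    have hIeq : I = Q.asIdeal * σQ.asIdeal := by
      have hco : Q.asIdeal ⊔ σQ.asIdeal = ⊤ :=
        Ideal.IsMaximal.coprime_of_ne Q.isMaximal σQ.isMaximal fun h => heq (HeightOneSpectrum.ext h.symm)
      rw [Ideal.mul_eq_inf_of_coprime hco]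
      exact le_antisymm (le_inf hIQ hIσ) hle
    have hN : Ideal.absNorm Q.asIdeal = Ideal.absNorm q.asIdeal := by
      have h := congrArg Ideal.absNorm hIeq
      rw [S.absNorm_map, map_mul, (S.conjPrime_frobVal hg hgM hQm).2.1, ← pow_two] at h
      exact (Nat.pow_left_injective two_ne_zero h).symm
    rw [hN] at huF
    have hi := TW.inv_mul_mem_inertia huF hτA
    have hiF : u⁻¹ * τ ∈ S.F.fixingSubgroup := mul_mem (inv_mem (S.fix_F_of_fix_M hu)) hτ
    have hτM : τ ∈ S.M.fixingSubgroup := by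
      have := mul_mem hu ((S.eps_eq_one_iff ⟨_, hiF⟩).1 (S.eps_inertia l hl hlm A hlA ⟨_, hiF⟩ hi))
      rwa [show u * ((⟨u⁻¹ * τ, hiF⟩ : S.F.fixingSubgroup) : GQ) = τ from mul_inv_cancel_left u τ]
        at this
    exact ⟨heq, hIeq, hτM, S.frobVal_of_place hQm hQ hτM (by rw [hN]; exact hτA)⟩

/-- The trace at an element of `G_M`. -/
theorem q8Trace_eq (τ : S.M.fixingSubgroup) :
    (q8Trace (S.ρ τ) : ℂ) = Complex.I ^ (S.quartChi τ).toAdd.val +
      Complex.I ^ (-(S.quartChi τ).toAdd).val := by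
  obtain ⟨k, hk⟩ := Subgroup.mem_zpowers_iff.1 (S.mem_fix_M.1 τ.2)
  have hneg : quartGen ^ 2 = -1 := by
    have h := LT.GL2F3.tq8_square _ ((LT.GL2F3.tq8_toTup _).2 quartGen_mem_q8)
      fun h => quartGen_sq_ne_one ((tpow_eq_one_iff _ 2).1 h)
    rw [toTup_pow_eq] at h
    refine Units.ext (LT.GL2F3.toTup_injective (h.trans ?_))
    simp [LT.GL2F3.toTup]
    decide
  have h4 : ∀ k : ℤ, quartGen ^ k = quartGen ^ ((k : ZMod 4).val) := fun k => by
    rw [← zpow_natCast, ZMod.val_intCast, ← zpow_mod_orderOf, orderOf_quartGen]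
  rw [S.quartChi_spec hk.symm, ← hk, h4 k, toAdd_ofAdd]
  have hc : ∀ a b : ℕ, a < 4 → b < 4 → quartGen ^ a = quartGen ^ b → a = b := fun a b ha hb e =>
    pow_injOn_Iio_orderOf (by rw [Set.mem_Iio, orderOf_quartGen]; exact ha)
      (by rw [Set.mem_Iio, orderOf_quartGen]; exact hb) e
  generalize (k : ZMod 4) = i
  fin_cases i
  · show (q8Trace (quartGen ^ 0) : ℂ) = Complex.I ^ 0 + Complex.I ^ 0
    simp [q8Trace]
    norm_num
  · show (q8Trace (quartGen ^ 1) : ℂ) = Complex.I ^ 1 + Complex.I ^ 3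
    rw [q8Trace, if_neg fun e => absurd (hc 1 0 (by norm_num) (by norm_num) (by rw [e, pow_zero])) (by norm_num),
      ← hneg, if_neg fun e => absurd (hc 1 2 (by norm_num) (by norm_num) e) (by norm_num),
      Complex.I_pow_three]
    simp
  · show (q8Trace (quartGen ^ 2) : ℂ) = Complex.I ^ 2 + Complex.I ^ 2
    rw [q8Trace, if_neg quartGen_sq_ne_one, ← hneg, if_pos rfl, Complex.I_sq]
    norm_num
  · show (q8Trace (quartGen ^ 3) : ℂ) = Complex.I ^ 3 + Complex.I ^ 1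
    rw [q8Trace, if_neg fun e => absurd (hc 3 0 (by norm_num) (by norm_num) (by rw [e, pow_zero])) (by norm_num),
      ← hneg, if_neg fun e => absurd (hc 3 2 (by norm_num) (by norm_num) e) (by norm_num),
      Complex.I_pow_three]
    simp

end Setup

end FermatAgent.LTG
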