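import Fermat.Agent.LT.General.ClassField.Quartic
import Fermat.Agent.LT.General.ClassField.Close

/-!
# One quadratic step of the crossing, general bad set
-/

set_option autoImplicit false

noncomputable section

open NumberField IsDedekindDomain Finset
open scoped Pointwise

namespace FermatAgent.LTG.ClassField

open FermatAgent.Duality (localGroup localField)
open FermatAgent.Duality.Global (Over IsPlace exists_over exists_place ord)
open FermatAgent.LT (exists_frobenius_over)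
open FermatAgent.LT.ClassField (Two cycTwo cycUnit cycTwo_inertia exists_level_cycTwo exists_pow_eq
  cycUnit_frobenius four_dvd_of_pow_eq_one exists_quad_norm isTotallyComplex_of_le)

local notation "Qb" => AlgebraicClosure ℚ
local notation "GQ" => AlgebraicClosure ℚ ≃ₐ[ℚ] AlgebraicClosure ℚ

attribute [local instance] FermatAgent.RT.isGalois_algClosureRat
  FermatAgent.Duality.Global.numberField_of_finite

namespace QuarticChar

variable (C : QuarticChar)

/-- The parity of the character. -/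
def parity : C.M.fixingSubgroup →* Multiplicative (ZMod 2) :=
  (AddMonoidHom.toMultiplicative
    (ZMod.castHom (show 2 ∣ 4 by norm_num) (ZMod 2)).toAddMonoidHom).comp C.χ

theorem parity_eq_one_iff (g : C.M.fixingSubgroup) :
    C.parity g = 1 ↔ (C.χ g).toAdd = 0 ∨ (C.χ g).toAdd = 2 := by
  show ZMod.castHom (show 2 ∣ 4 by norm_num) (ZMod 2) (C.χ g).toAdd = 0 ↔ _
  generalize (C.χ g).toAdd = i
  revert i
  decide

theorem parity_of_chi_eq_one {g : C.M.fixingSubgroup} (h : C.χ g = 1) : C.parity g = 1 :=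
  (C.parity_eq_one_iff g).2 (Or.inl (by rw [h, toAdd_one]))

theorem exists_level_parity : ∃ L : IntermediateField ℚ Qb, FiniteDimensional ℚ L ∧
    ∀ h : C.M.fixingSubgroup, (h : GQ) ∈ L.fixingSubgroup → C.parity h = 1 := by
  obtain ⟨L, hL, h⟩ := C.level
  exact ⟨L, hL, fun g hg => C.parity_of_chi_eq_one (h g hg)⟩

/-- Deep in the tower the places over small primes split. -/
theorem chi_eq_one_of_cycTwo {n B l : ℕ} (hn : 4 * Module.finrank ℚ C.M * B + 3 ≤ n) (hl : l.Prime)
    (hlm : ¬ l ∣ C.m) (hlB : l ≤ B) {A : ValuationSubring Qb} (hA : A.LiesOverPrime l)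
    {d : C.M.fixingSubgroup} (hd : (d : GQ) ∈ A.decompositionSubgroup ℚ)
    (hc : cycTwo n (d : GQ) = 1) : C.χ d = 1 := by
  have hl2 := C.ne_two_of_not_dvd hlm
  obtain ⟨P, hP⟩ := exists_over (K := C.M) (A := A) ⟨l, hl, hA⟩
  obtain ⟨g, hg, -, -, hgF⟩ := exists_frobenius_over C.M hP
  let f : C.M.fixingSubgroup →* Multiplicative (ZMod 4) × Two n :=
    C.χ.prod ((cycTwo n).comp C.M.fixingSubgroup.subtype)
  have hlev : ∃ L : IntermediateField ℚ Qb, FiniteDimensional ℚ L ∧
      ∀ h : C.M.fixingSubgroup, (h : GQ) ∈ L.fixingSubgroup → f h = 1 := by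
    obtain ⟨L₁, h₁, h₁'⟩ := C.level
    obtain ⟨L₂, h₂, h₂'⟩ := exists_level_cycTwo n
    refine ⟨L₁ ⊔ L₂, IntermediateField.finiteDimensional_sup L₁ L₂, fun h hh => ?_⟩
    rw [IntermediateField.fixingSubgroup_sup] at hh
    exact Prod.ext (h₁' h hh.1) (h₂' h hh.2)
  obtain ⟨j, hj⟩ := exists_pow_eq (Q := Multiplicative (ZMod 4) × Two n) f hlev
    (fun i hi => show f i = 1 from
      Prod.ext (C.unramified l hl hlm A hA i hi) (cycTwo_inertia hl hl2 hA hi))
    hP (g := ⟨g, hg⟩) hgF hd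
  have h1 : C.χ d = C.χ ⟨g, hg⟩ ^ j := congrArg Prod.fst hj
  have h2 : cycTwo n (d : GQ) = cycTwo n g ^ j := congrArg Prod.snd hj
  rw [hc] at h2
  set N := Ideal.absNorm P.asIdeal
  have hNle : N ^ 4 < 2 ^ n := by
    have hd1 : N ≤ l ^ Module.finrank ℚ C.M := by
      have h := Ideal.absNorm_dvd_absNorm_of_le
        ((Ideal.span_singleton_le_iff_mem _).mpr (hP.natCast_mem hA))
      rw [Ideal.absNorm_span_natCast, RingOfIntegers.rank] at h
      exact Nat.le_of_dvd (pow_pos hl.pos _) h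
    calc N ^ 4 ≤ (l ^ Module.finrank ℚ C.M) ^ 4 := Nat.pow_le_pow_left hd1 4
      _ ≤ ((2 ^ B) ^ Module.finrank ℚ C.M) ^ 4 := by
          gcongr
          exact hlB.trans Nat.lt_two_pow_self.le
      _ < 2 ^ n := by
          rw [← pow_mul, ← pow_mul]
          exact Nat.pow_lt_pow_right one_lt_two (by nlinarith)
  have h4 := four_dvd_of_pow_eq_one (u := cycUnit n g) (cycUnit_frobenius hl hl2 hA hgF)
    (CFT.two_le_absNorm P) hNle h2.symm
  obtain ⟨c, rfl⟩ := h4
  rw [h1, pow_mul]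
  have : ∀ x : Multiplicative (ZMod 4), x ^ 4 = 1 := by decide
  rw [this, one_pow]

/-- **One step**: a number close to `1` is a norm from `E(r)`, of a number close to `1`. -/
theorem exists_step {E : IntermediateField ℚ Qb} [FiniteDimensional ℚ E] (hME : C.M ≤ E) {r : Qb}
    (hr0 : r ≠ 0) (hri : IsIntegral ℤ r) (hr2 : r ^ 2 ∈ E)
    (hfix : ∀ (g : GQ) (hg : g ∈ E.fixingSubgroup),
      C.χ ⟨g, IntermediateField.fixingSubgroup_antitone hME hg⟩ = 1 → g r = r)
    {s : GQ} (hs : s ∈ E.fixingSubgroup) (hsr : s r = -r) {R N : ℕ} (hN : 4 * C.m ∣ N)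
    (hR : ∀ A, IsBadPlace C.m A → A.valuation (R : Qb) ≤ A.valuation r) {x : Qb} (hxE : x ∈ E)
    (hx0 : x ≠ 0) (hx : Close C.m (N * (4 * R)) x) {B : ℕ}
    (hB : ∀ l : ℕ, l.Prime → ¬ l ∣ C.m → B < l → ∀ A : ValuationSubring Qb,
      A.LiesOverPrime l → A.valuation x = 1 ∧ A.valuation r = 1)
    {n : ℕ} (hn : 4 * Module.finrank ℚ C.M * B + 3 ≤ n)
    (hEn : ∀ g ∈ E.fixingSubgroup, cycTwo n g = 1) :
    ∃ z : Qb, (∀ g ∈ E.fixingSubgroup, g r = r → g z = z) ∧ z * s z = x ∧ Close C.m N z := by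
  obtain ⟨z, hz, hzx⟩ := exists_quad_norm (isTotallyComplex_of_le C.totallyComplex hME) hr0 hr2 hs
    hsr hxE hx0 (fun A l hl hA => by
      by_cases hlm : l ∣ C.m
      · exact Or.inr (Or.inl (exists_sq_of_close hxE (hN.mul_right _) hx ⟨l, hl, hlm, hA⟩))
      · by_cases hlB : l ≤ B
        · refine Or.inl fun d hd => hfix d hd.1 ?_
          exact C.chi_eq_one_of_cycTwo hn hl hlm hlB hA hd.2 (hEn d hd.1)
        · exact Or.inr (Or.inr ⟨C.ne_two_of_not_dvd hlm, hB l hl hlm (not_le.1 hlB) A hA⟩))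
  obtain ⟨z', hz', hzx', hclose⟩ := exists_close_quad C.m_ne_zero C.two_dvd hs hr0 hri hr2 hsr hz hzx (N := N) hR hx
  exact ⟨z', hz', hzx', hclose⟩

end QuarticChar

end FermatAgent.LTG.ClassField
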