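import Fermat.Agent.LT.ClassField.Reciprocity
import Fermat.Agent.LT.General.ClassField.Step

/-!
# Reciprocity near `1`, general bad set
-/

set_option autoImplicit false

noncomputable section

open NumberField IsDedekindDomain Finset
open scoped Pointwise

namespace FermatAgent.LTG.ClassField

open FermatAgent.Duality.Global (Over IsPlace exists_over exists_place ord finite_setOf_ord_ne_zero)
open FermatAgent.LT (exists_frobenius_over)
open FermatAgent.LT.ClassField (Two cycTwo cycTwo_inertia cycTwo_eq_one_of_le exists_level_cycTwo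
  isCyclic_two kerField le_kerField finiteDimensional_kerField mem_fix_kerField exists_sqrt_char
  exists_nat_val_le exists_nat_val_eq_one normClassTwo normClassTwo_eq_cycTwo
  finprod_normClassTwo_eq_one apply_eq_of_hom_eq fixed_apply crossing_relation
  exists_odd_mul_integral)
open FermatAgent.LT.ClassField.QuarticChar (mem_of_fixed)

local notation "Qb" => AlgebraicClosure ℚ
local notation "GQ" => AlgebraicClosure ℚ ≃ₐ[ℚ] AlgebraicClosure ℚ

attribute [local instance] FermatAgent.RT.isGalois_algClosureRat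
  FermatAgent.Duality.Global.numberField_of_finite

/-! ### Closeness of `4 / s` -/

theorem four_sum_sub_le {m N : ℕ} {a b c : Qb} (ha : Close m N a) (hb : Close m N b) (hc : Close m N c)
    (A : ValuationSubring Qb) (hA : IsBadPlace m A) :
    A.valuation (1 + a + b + c - 4) ≤ A.valuation (N : Qb) := by
  rw [show 1 + a + b + c - 4 = (a - 1) + (b - 1) + (c - 1) by ring]
  exact A.valuation.map_add_le (A.valuation.map_add_le (ha A hA) (hb A hA)) (hc A hA)

theorem val_eq_four {m N : ℕ} (hN : m ∣ N) {s : Qb}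
    (h : ∀ A, IsBadPlace m A → A.valuation (s - 4) ≤ A.valuation ((4 * N : ℕ) : Qb))
    {A : ValuationSubring Qb} (hA : IsBadPlace m A) : A.valuation s = A.valuation 4 := by
  have hlt : A.valuation (s - 4) < A.valuation 4 := by
    refine (h A hA).trans_lt ?_
    rw [Nat.cast_mul, Nat.cast_ofNat, map_mul]
    exact mul_lt_of_lt_one_right (zero_lt_iff.2 ((map_ne_zero _).2 (by norm_num)))
      (hA.val_lt_one hN)
  conv_lhs => rw [show s = 4 + (s - 4) by ring]
  exact A.valuation.map_add_eq_of_lt_left hlt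

theorem ne_zero_of_four {m N : ℕ} (h2 : 2 ∣ m) (hN : m ∣ N) {s : Qb}
    (h : ∀ A, IsBadPlace m A → A.valuation (s - 4) ≤ A.valuation ((4 * N : ℕ) : Qb)) : s ≠ 0 := by
  obtain ⟨A₂, hA₂⟩ := exists_isBadPlace h2
  intro h0
  have := val_eq_four hN h hA₂
  rw [h0, map_zero, eq_comm, map_eq_zero] at this
  norm_num at this

theorem close_four_div {m N : ℕ} (h2 : 2 ∣ m) (hN : m ∣ N) {s : Qb}
    (h : ∀ A, IsBadPlace m A → A.valuation (s - 4) ≤ A.valuation ((4 * N : ℕ) : Qb)) :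
    Close m N (4 / s) := fun A hA => by
  rw [div_sub_one (ne_zero_of_four h2 hN h), map_div₀, val_eq_four hN h hA,
    A.valuation.map_sub_swap, div_le_iff₀ (zero_lt_iff.2 ((map_ne_zero _).2 (by norm_num))),
    ← map_mul, show (N : Qb) * 4 = ((4 * N : ℕ) : Qb) by push_cast; ring]
  exact h A hA

theorem close_add_div {m N N' : ℕ} (h2 : 2 ∣ m) (hN : m ∣ N) {s x : Qb}
    (h : ∀ A, IsBadPlace m A → A.valuation (s - 4) ≤ A.valuation ((4 * N : ℕ) : Qb))
    (hx : Close m (4 * N') x) : Close m N' ((s - 1 + x) / s) := fun A hA => by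
  rw [show (s - 1 + x) / s - 1 = (x - 1) / s by
      rw [div_sub_one (ne_zero_of_four h2 hN h)]; ring,
    map_div₀, val_eq_four hN h hA,
    div_le_iff₀ (zero_lt_iff.2 ((map_ne_zero _).2 (by norm_num))), ← map_mul,
    show (N' : Qb) * 4 = ((4 * N' : ℕ) : Qb) by push_cast; ring]
  exact hx A hA

namespace QuarticChar

variable (C : QuarticChar)

/-- The Frobenius values weighted by the orders. -/
def artin (x : C.Mˣ) : ZMod 4 := ∑ᶠ P, ord P x • C.frobVal P

theorem artin_finite (x : C.Mˣ) :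
    (Function.support fun P => ord P x • C.frobVal P).Finite :=
  (finite_setOf_ord_ne_zero x).subset fun P hP h =>
    hP (show ord P x • C.frobVal P = 0 by rw [h, zero_smul])

theorem artin_mul (x y : C.Mˣ) : C.artin (x * y) = C.artin x + C.artin y := by
  rw [artin, artin, artin, ← finsum_add_distrib (C.artin_finite x) (C.artin_finite y)]
  exact finsum_congr fun P => by rw [Duality.Global.ord_mul, add_smul]

theorem artin_one : C.artin 1 = 0 := by simp [artin]

theorem artin_pow (x : C.Mˣ) (n : ℕ) : C.artin (x ^ n) = n • C.artin x := by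
  induction n with
  | zero => simp [artin_one]
  | succ n ih => rw [pow_succ, artin_mul, ih, succ_nsmul]

theorem artin_fourth (x : C.Mˣ) : C.artin (x ^ 4) = 0 := by
  rw [artin_pow, nsmul_eq_mul]
  have : ((4 : ℕ) : ZMod 4) = 0 := ZMod.natCast_self 4
  rw [this, zero_mul]

/-- The order vanishes where a number is close to `1`. -/
theorem ord_eq_zero_of_close {N : ℕ} (hN : C.m ∣ N) {x : C.Mˣ} (hx : Close C.m N ((x : C.M) : Qb))
    {A : ValuationSubring Qb} {P : HeightOneSpectrum (𝓞 C.M)} (hA : Over C.M A P)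
    (hbad : IsBadPlace C.m A) : ord P x = 0 :=
  (hA.val_eq_one_iff x).1 (hx.val_eq_one hN hbad)

/-- The half of the character on the kernel of its parity. -/
def half : (kerField C.parity).fixingSubgroup →* Multiplicative (ZMod 2) where
  toFun g := Multiplicative.ofAdd (if (C.χ ⟨g, IntermediateField.fixingSubgroup_antitone
    (le_kerField C.parity) g.2⟩).toAdd = 0 then 0 else 1)
  map_one' := by
    rw [show (⟨((1 : (kerField C.parity).fixingSubgroup) : GQ), _⟩ : C.M.fixingSubgroup) = 1 from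
      rfl, map_one, toAdd_one, if_pos rfl, ofAdd_zero]
  map_mul' g h := by
    have hpar : ∀ g : (kerField C.parity).fixingSubgroup,
        (C.χ ⟨g, IntermediateField.fixingSubgroup_antitone (le_kerField C.parity) g.2⟩).toAdd = 0 ∨
        (C.χ ⟨g, IntermediateField.fixingSubgroup_antitone (le_kerField C.parity) g.2⟩).toAdd = 2 :=
      fun g => by
        obtain ⟨_, h⟩ := (mem_fix_kerField C.parity C.exists_level_parity).1 g.2
        exact (C.parity_eq_one_iff _).1 h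
    rw [← ofAdd_add, show (⟨((g * h : (kerField C.parity).fixingSubgroup) : GQ), _⟩ :
        C.M.fixingSubgroup) =
      ⟨g, IntermediateField.fixingSubgroup_antitone (le_kerField C.parity) g.2⟩ *
      ⟨h, IntermediateField.fixingSubgroup_antitone (le_kerField C.parity) h.2⟩ from rfl,
      map_mul, toAdd_mul]
    refine congrArg _ ?_
    rcases hpar g with e | e <;> rcases hpar h with e' | e' <;> rw [e, e'] <;> decide

theorem half_eq_one_iff (g : (kerField C.parity).fixingSubgroup) :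
    C.half g = 1 ↔
      C.χ ⟨g, IntermediateField.fixingSubgroup_antitone (le_kerField C.parity) g.2⟩ = 1 := by
  show Multiplicative.ofAdd (if _ = (0 : ZMod 4) then (0 : ZMod 2) else 1) = 1 ↔ _
  split_ifs with h
  · exact ⟨fun _ => toAdd_eq_zero.1 h, fun _ => ofAdd_zero⟩
  · exact ⟨fun e => absurd e (by decide), fun e => absurd (by rw [e, toAdd_one]) h⟩

/-- The character to the `2`-tower, restricted to `M`. -/
def cyc (n : ℕ) : C.M.fixingSubgroup →* Two n := (cycTwo n).comp C.M.fixingSubgroup.subtype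

theorem exists_level_cyc (n : ℕ) : ∃ L : IntermediateField ℚ Qb, FiniteDimensional ℚ L ∧
    ∀ h : C.M.fixingSubgroup, (h : GQ) ∈ L.fixingSubgroup → C.cyc n h = 1 := by
  obtain ⟨L, hL, h⟩ := exists_level_cycTwo n
  exact ⟨L, hL, fun g hg => h g hg⟩

theorem exists_level_prod {Q Q' : Type} [MulOneClass Q] [MulOneClass Q']
    {f : C.M.fixingSubgroup →* Q} {f' : C.M.fixingSubgroup →* Q'}
    (h : ∃ L : IntermediateField ℚ Qb, FiniteDimensional ℚ L ∧
      ∀ g : C.M.fixingSubgroup, (g : GQ) ∈ L.fixingSubgroup → f g = 1)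
    (h' : ∃ L : IntermediateField ℚ Qb, FiniteDimensional ℚ L ∧
      ∀ g : C.M.fixingSubgroup, (g : GQ) ∈ L.fixingSubgroup → f' g = 1) :
    ∃ L : IntermediateField ℚ Qb, FiniteDimensional ℚ L ∧
      ∀ g : C.M.fixingSubgroup, (g : GQ) ∈ L.fixingSubgroup → f.prod f' g = 1 := by
  obtain ⟨L, hL, hf⟩ := h
  obtain ⟨L', hL', hf'⟩ := h'
  refine ⟨L ⊔ L', IntermediateField.finiteDimensional_sup L L', fun g hg => ?_⟩
  rw [IntermediateField.fixingSubgroup_sup] at hg
  exact Prod.ext (hf g hg.1) (hf' g hg.2)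

/-- The group of the character and the tower. -/
def Quart (n : ℕ) : Type := Multiplicative (ZMod 4) × Two n

instance (n : ℕ) : CommGroup (Quart n) :=
  inferInstanceAs (CommGroup (Multiplicative (ZMod 4) × Two n))

/-- The character together with the tower. -/
def quartCyc (n : ℕ) : C.M.fixingSubgroup →* Quart n where
  toFun g := (C.χ g, C.cyc n g)
  map_one' := Prod.ext (map_one _) (map_one _)
  map_mul' _ _ := Prod.ext (map_mul _ _ _) (map_mul _ _ _)

theorem quartCyc_eq_iff {n : ℕ} {g h : C.M.fixingSubgroup} :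
    C.quartCyc n g = C.quartCyc n h ↔ C.χ g = C.χ h ∧ C.cyc n g = C.cyc n h := Prod.ext_iff

theorem quartCyc_eq_one_iff {n : ℕ} {g : C.M.fixingSubgroup} :
    C.quartCyc n g = 1 ↔ C.χ g = 1 ∧ C.cyc n g = 1 := by
  rw [← map_one (C.quartCyc n), quartCyc_eq_iff, map_one, map_one]

theorem exists_level_quartCyc (n : ℕ) : ∃ L : IntermediateField ℚ Qb, FiniteDimensional ℚ L ∧
    ∀ g : C.M.fixingSubgroup, (g : GQ) ∈ L.fixingSubgroup → C.quartCyc n g = 1 := by
  obtain ⟨L, hL, h⟩ := C.exists_level_prod C.level (C.exists_level_cyc n)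
  exact ⟨L, hL, fun g hg => C.quartCyc_eq_one_iff.2
    ⟨congrArg Prod.fst (h g hg), congrArg Prod.snd (h g hg)⟩⟩

/-- The group of the parity and the tower. -/
def ParityTwo (n : ℕ) : Type := Multiplicative (ZMod 2) × Two n

instance (n : ℕ) : CommGroup (ParityTwo n) :=
  inferInstanceAs (CommGroup (Multiplicative (ZMod 2) × Two n))

/-- The parity together with the tower. -/
def parityCyc (n : ℕ) : C.M.fixingSubgroup →* ParityTwo n where
  toFun g := (C.parity g, C.cyc n g)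
  map_one' := Prod.ext (map_one _) (map_one _)
  map_mul' _ _ := Prod.ext (map_mul _ _ _) (map_mul _ _ _)

theorem parityCyc_eq_one_iff {n : ℕ} {g : C.M.fixingSubgroup} :
    C.parityCyc n g = 1 ↔ C.parity g = 1 ∧ C.cyc n g = 1 := by
  rw [← map_one (C.parityCyc n)]
  refine Prod.ext_iff.trans ?_
  show C.parity g = C.parity 1 ∧ C.cyc n g = C.cyc n 1 ↔ _
  rw [map_one, map_one]

theorem exists_level_parityCyc (n : ℕ) : ∃ L : IntermediateField ℚ Qb, FiniteDimensional ℚ L ∧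
    ∀ g : C.M.fixingSubgroup, (g : GQ) ∈ L.fixingSubgroup → C.parityCyc n g = 1 := by
  obtain ⟨L, hL, h⟩ := C.exists_level_prod C.exists_level_parity (C.exists_level_cyc n)
  exact ⟨L, hL, fun g hg => C.parityCyc_eq_one_iff.2
    ⟨congrArg Prod.fst (h g hg), congrArg Prod.snd (h g hg)⟩⟩

/-- The field of the parity and the tower. -/
def parityField (n : ℕ) : IntermediateField ℚ Qb := kerField (C.parityCyc n)

instance finiteDimensional_parityField (n : ℕ) : FiniteDimensional ℚ (C.parityField n) :=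
  finiteDimensional_kerField (C.parityCyc n) (C.exists_level_parityCyc n)

theorem mem_fix_parityField {n : ℕ} {g : GQ} : g ∈ (C.parityField n).fixingSubgroup ↔
    ∃ h : g ∈ C.M.fixingSubgroup, C.parity ⟨g, h⟩ = 1 ∧ cycTwo n g = 1 :=
  (mem_fix_kerField (C.parityCyc n) (C.exists_level_parityCyc n)).trans
    (exists_congr fun _ => C.parityCyc_eq_one_iff)

theorem exists_bound {a b : Qb} (ha : a ≠ 0) (hb : b ≠ 0) :
    ∃ B : ℕ, ∀ l : ℕ, l.Prime → ¬ l ∣ C.m → B < l → ∀ A : ValuationSubring Qb,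
      A.LiesOverPrime l → A.valuation a = 1 ∧ A.valuation b = 1 := by
  obtain ⟨Na, hNa, ha'⟩ := exists_nat_val_eq_one ha
  obtain ⟨Nb, hNb, hb'⟩ := exists_nat_val_eq_one hb
  exact ⟨max Na Nb, fun l hl _ hlt A hA =>
    ⟨ha' l hl (fun h => absurd (Nat.le_of_dvd (Nat.pos_of_ne_zero hNa) h) (by omega)) A hA,
     hb' l hl (fun h => absurd (Nat.le_of_dvd (Nat.pos_of_ne_zero hNb) h) (by omega)) A hA⟩⟩

/-- **Cyclic norm deep in the tower.** -/
theorem exists_quartic_norm (σ : C.M.fixingSubgroup) (hσ : C.χ σ = Multiplicative.ofAdd 1)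
    (hσc : ∀ n, cycTwo n (σ : GQ) = 1) {r₁ r₂ : Qb} {R₁ R₂ : ℕ}
    (h₁ : r₁ ≠ 0 ∧ IsIntegral ℤ r₁ ∧ r₁ ^ 2 ∈ C.M ∧
      (∀ g : C.M.fixingSubgroup, C.parity g = 1 → (g : GQ) r₁ = r₁) ∧
      ∀ g : C.M.fixingSubgroup, C.parity g ≠ 1 → (g : GQ) r₁ = -r₁)
    (h₂ : r₂ ≠ 0 ∧ IsIntegral ℤ r₂ ∧ r₂ ^ 2 ∈ kerField C.parity ∧
      (∀ g : (kerField C.parity).fixingSubgroup, C.half g = 1 → (g : GQ) r₂ = r₂) ∧
      ∀ g : (kerField C.parity).fixingSubgroup, C.half g ≠ 1 → (g : GQ) r₂ = -r₂)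
    (hR₁ : ∀ A : ValuationSubring Qb, A.valuation (R₁ : Qb) ≤ A.valuation r₁)
    (hR₂ : ∀ A : ValuationSubring Qb, A.valuation (R₂ : Qb) ≤ A.valuation r₂)
    {x : C.Mˣ} (hx : Close C.m (4 * C.m * (4 * R₂) * (4 * R₁)) ((x : C.M) : Qb)) :
    ∃ (n : ℕ) (z : Qb), 3 ≤ n ∧
      (∀ g : C.M.fixingSubgroup, C.quartCyc n g = 1 → (g : GQ) z = z) ∧
      ((x : C.M) : Qb) = ∏ k ∈ range 4, ((σ : GQ) ^ k) z ∧ Close C.m (4 * C.m) z := by
  obtain ⟨h₁0, h₁i, h₁M, h₁f, h₁m⟩ := h₁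
  obtain ⟨h₂0, h₂i, h₂M, h₂f, h₂m⟩ := h₂
  have hx0 : ((x : C.M) : Qb) ≠ 0 := by simp
  have hσp : C.parity σ ≠ 1 := by
    rw [Ne, C.parity_eq_one_iff, hσ]
    decide
  -- first step
  obtain ⟨B₁, hB₁⟩ := C.exists_bound hx0 h₁0
  set n₁ := 4 * Module.finrank ℚ C.M * B₁ + 3
  have hlev₁ := C.exists_level_cyc n₁
  have := finiteDimensional_kerField (C.cyc n₁) hlev₁
  have hM₁ : C.M ≤ kerField (C.cyc n₁) := le_kerField _
  have hmem₁ : ∀ g : GQ, g ∈ (kerField (C.cyc n₁)).fixingSubgroup → cycTwo n₁ g = 1 :=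
    fun g hg => ((mem_fix_kerField _ hlev₁).1 hg).2
  obtain ⟨z₁, hz₁, hzx₁, hc₁⟩ := C.exists_step hM₁ h₁0 h₁i (hM₁ h₁M)
    (fun g hg h => h₁f ⟨g, IntermediateField.fixingSubgroup_antitone hM₁ hg⟩
      (C.parity_of_chi_eq_one h))
    ((mem_fix_kerField _ hlev₁).2 ⟨σ.2, hσc n₁⟩) (h₁m σ hσp)
    (R := R₁) (N := 4 * C.m * (4 * R₂)) (dvd_mul_right _ _) (fun A _ => hR₁ A)
    (hM₁ (x : C.M).2) hx0 hx hB₁ (le_refl n₁) hmem₁
  have hz₁0 : z₁ ≠ 0 := fun h => hx0 (by rw [← hzx₁, h, zero_mul])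
  -- second step
  obtain ⟨B₂, hB₂⟩ := C.exists_bound hz₁0 h₂0
  set n₂ := n₁ + (4 * Module.finrank ℚ C.M * B₂ + 3)
  have hM₂ : C.M ≤ C.parityField n₂ := le_kerField _
  have hE₂ : ∀ g : GQ, g ∈ (C.parityField n₂).fixingSubgroup →
      ∃ h : g ∈ C.M.fixingSubgroup, C.parity ⟨g, h⟩ = 1 ∧ cycTwo n₂ g = 1 :=
    fun g hg => C.mem_fix_parityField.1 hg
  have hpar : ∀ g : GQ, g ∈ (C.parityField n₂).fixingSubgroup →
      g ∈ (kerField C.parity).fixingSubgroup := fun g hg => by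
    obtain ⟨h, hp, -⟩ := hE₂ g hg
    exact (mem_fix_kerField _ C.exists_level_parity).2 ⟨h, hp⟩
  have hσ2p : C.parity (σ * σ) = 1 := by
    rw [C.parity_eq_one_iff, map_mul, hσ]
    decide
  have hσ2 : ((σ * σ : C.M.fixingSubgroup) : GQ) ∈
      (C.parityField n₂).fixingSubgroup :=
    C.mem_fix_parityField.2 ⟨(σ * σ).2, hσ2p, (by
      show C.cyc n₂ (σ * σ) = 1
      rw [map_mul, show C.cyc n₂ σ = 1 from hσc n₂]; exact one_mul (1 : Two n₂))⟩
  obtain ⟨z, hz, hzx, hc⟩ := C.exists_step hM₂ h₂0 h₂i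
    (mem_of_fixed fun g hg => hpar g hg ⟨_, h₂M⟩)
    (fun g hg h => h₂f ⟨g, hpar g hg⟩ ((C.half_eq_one_iff _).2 h))
    hσ2 (h₂m ⟨_, hpar _ hσ2⟩ fun h => by
      rw [C.half_eq_one_iff, show (⟨((⟨_, hpar _ hσ2⟩ : (kerField C.parity).fixingSubgroup) : GQ),
        _⟩ : C.M.fixingSubgroup) = σ * σ from rfl, map_mul, hσ] at h
      exact absurd h (by decide))
    (R := R₂) (N := 4 * C.m) dvd_rfl (fun A _ => hR₂ A) (x := z₁)
    (mem_of_fixed fun g hg => by
      obtain ⟨h, hp, hcy⟩ := hE₂ g hg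
      exact hz₁ g ((mem_fix_kerField _ hlev₁).2 ⟨h, cycTwo_eq_one_of_le (Nat.le_add_right _ _) hcy⟩)
        (h₁f ⟨g, h⟩ hp))
    hz₁0 hc₁ hB₂ (n := n₂) (Nat.le_add_left _ _) (fun g hg => (hE₂ g hg).2.2)
  refine ⟨n₂, z, le_trans (Nat.le_add_left _ _) (Nat.le_add_left _ _), fun g hg => ?_, ?_, hc⟩
  · have hgχ : C.χ g = 1 := congrArg Prod.fst hg
    have hgE : (g : GQ) ∈ (C.parityField n₂).fixingSubgroup :=
      C.mem_fix_parityField.2 ⟨g.2, C.parity_of_chi_eq_one hgχ,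
        (C.quartCyc_eq_one_iff.1 hg).2⟩
    exact hz g hgE (h₂f ⟨g, hpar _ hgE⟩ ((C.half_eq_one_iff _).2 hgχ))
  · rw [← hzx₁, ← hzx, map_mul]
    simp only [prod_range_succ, prod_range_zero, one_mul, pow_succ, pow_zero, AlgEquiv.mul_apply,
      AlgEquiv.one_apply, Subgroup.coe_mul]
    ring

/-- **Crossing.** -/
theorem artin_eq_zero_of_norm (σ : C.M.fixingSubgroup) (hσ : C.χ σ = Multiplicative.ofAdd 1)
    (hσc : ∀ n, cycTwo n (σ : GQ) = 1) {n : ℕ} (hn : 3 ≤ n) {z : Qb}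
    (hz : ∀ g : C.M.fixingSubgroup, C.quartCyc n g = 1 → (g : GQ) z = z) {x : C.Mˣ}
    (hzx : ((x : C.M) : Qb) = ∏ k ∈ range 4, ((σ : GQ) ^ k) z) (hz4 : Close C.m (4 * C.m) z) {N : ℕ}
    (hNm : C.m ∣ N) (hN2 : 2 ^ n ∣ N) (hx : Close C.m (4 * (4 * N)) ((x : C.M) : Qb)) :
    C.artin x = 0 := by
  classical
  set f := C.quartCyc n with hf
  have hlev := C.exists_level_quartCyc n
  have hcomm : ∀ (g h : C.M.fixingSubgroup) (w : Qb),
      (∀ k : C.M.fixingSubgroup, f k = 1 → (k : GQ) w = w) →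
        (g : GQ) ((h : GQ) w) = (h : GQ) ((g : GQ) w) := fun g h w hw => by
    rw [← AlgEquiv.mul_apply, ← AlgEquiv.mul_apply]
    exact apply_eq_of_hom_eq (g := g * h) (h := h * g) hw
      (by rw [map_mul, map_mul]; exact mul_comm _ _)
  have hσ4 : f σ ^ 4 = 1 := by
    rw [← map_pow, C.quartCyc_eq_one_iff, map_pow, map_pow, hσ,
      show C.cyc n σ = 1 from hσc n, one_pow]
    exact ⟨by decide, rfl⟩
  have hper : ∀ w : Qb, (∀ k : C.M.fixingSubgroup, f k = 1 → (k : GQ) w = w) →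
      (σ : GQ) ((σ : GQ) ((σ : GQ) ((σ : GQ) w))) = w := fun w hw => by
    have := hw (σ ^ 4) (by rw [map_pow, hσ4])
    simpa [pow_succ] using this
  have hx4 : ((x : C.M) : Qb) = z * (σ : GQ) z * (σ : GQ) ((σ : GQ) z) *
      (σ : GQ) ((σ : GQ) ((σ : GQ) z)) := by
    rw [hzx]
    simp only [prod_range_succ, prod_range_zero, one_mul, pow_succ, pow_zero, AlgEquiv.mul_apply,
      AlgEquiv.one_apply]
  -- make the norm equation close
  set u := 1 + z + z * (σ : GQ) z + z * (σ : GQ) z * (σ : GQ) ((σ : GQ) z) with hu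
  have hu4 : ∀ A, IsBadPlace C.m A → A.valuation (u - 4) ≤ A.valuation ((4 * C.m : ℕ) : Qb) :=
    fun A hA => four_sum_sub_le hz4 (hz4.mul (hz4.apply _))
      ((hz4.mul (hz4.apply _)).mul ((hz4.apply _).apply _)) A hA
  have hu0 : u ≠ 0 := ne_zero_of_four C.two_dvd dvd_rfl hu4
  have hufix : ∀ k : C.M.fixingSubgroup, f k = 1 → (k : GQ) u = u := fun k hk => by
    simp only [hu, map_add, map_mul, map_one, hz k hk, fixed_apply hz σ k hk,
      fixed_apply (fixed_apply hz σ) σ k hk]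
  have hzu : z * (σ : GQ) u = u - 1 + ((x : C.M) : Qb) := by
    simp only [hu, hx4, map_add, map_mul, map_one]
    ring
  set z' := z * (σ : GQ) u / u with hz'
  have hz'fix : ∀ k : C.M.fixingSubgroup, f k = 1 → (k : GQ) z' = z' := fun k hk => by
    rw [hz', map_div₀, map_mul, hz k hk, fixed_apply hufix σ k hk, hufix k hk]
  have hz'c : Close C.m (4 * N) z' := by
    rw [hz', hzu]
    exact close_add_div C.two_dvd dvd_rfl hu4 hx
  have hx0 : ((x : C.M) : Qb) ≠ 0 := by simp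
  have hz0 : z ≠ 0 := fun h => hx0 (by rw [hx4, h]; simp)
  have hz'0 : z' ≠ 0 := div_ne_zero (mul_ne_zero hz0 ((map_ne_zero _).2 hu0)) hu0
  have hz'x : ((x : C.M) : Qb) = z' * (σ : GQ) z' * (σ : GQ) ((σ : GQ) z') *
      (σ : GQ) ((σ : GQ) ((σ : GQ) z')) := by
    have h1 := (map_ne_zero (σ : GQ)).2 hu0
    have h2 := (map_ne_zero (σ : GQ)).2 h1
    have h3 := (map_ne_zero (σ : GQ)).2 h2
    rw [hx4, hz', map_div₀, map_div₀, map_div₀, map_mul, map_mul, map_mul, hper u hufix]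
    field_simp
  clear_value z'
  -- the generator of the tower
  have hcyc : IsCyclic (Two n) := isCyclic_two hn
  obtain ⟨⟨t, g₀, hg₀⟩, ht⟩ := IsCyclic.exists_generator (α := (C.cyc n).range)
  set τ := g₀ * σ ^ (-(C.χ g₀).toAdd).val with hτ
  have hτχ : C.χ τ = 1 := by
    rw [hτ, map_mul, map_pow, hσ]
    generalize C.χ g₀ = i
    revert i
    decide
  have hτc : C.cyc n τ = t := by
    rw [hτ, map_mul, map_pow, show C.cyc n σ = 1 from hσc n, one_pow]
    exact (mul_one _).trans hg₀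
  have hgen : ∀ g : C.M.fixingSubgroup, ∃ b : ℕ, C.cyc n g = t ^ b := fun g => by
    have h1 := ht ⟨C.cyc n g, g, rfl⟩
    rw [← mem_powers_iff_mem_zpowers, Submonoid.mem_powers_iff] at h1
    obtain ⟨b, hb⟩ := h1
    exact ⟨b, (congrArg Subtype.val hb).symm⟩
  have hdec : ∀ (g : C.M.fixingSubgroup) (b : ℕ), C.cyc n g = t ^ b →
      f g = f σ ^ (C.χ g).toAdd.val * f τ ^ b := fun g b hb => by
    rw [← map_pow, ← map_pow, ← map_mul, hf, C.quartCyc_eq_iff, map_mul, map_pow, map_pow, hσ,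
      hτχ, one_pow, map_mul, map_pow, map_pow, hτc, show C.cyc n σ = 1 from hσc n, one_pow, hb]
    refine ⟨(?_ : C.χ g = _), (one_mul _).symm⟩
    generalize C.χ g = i
    revert i
    decide
  set m := orderOf t
  have hτm : f τ ^ m = 1 := by
    rw [← map_pow, C.quartCyc_eq_one_iff, map_pow, map_pow, hτχ, one_pow, hτc]
    exact ⟨rfl, pow_orderOf_eq_one t⟩
  -- the crossed number
  set v := (τ : GQ) z' / z' with hv
  have hvc : Close C.m (4 * N) v := (hz'c.apply _).div hz'c (dvd_mul_of_dvd_right hNm 4)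
  set u' := 1 + v + v * (σ : GQ) v + v * (σ : GQ) v * (σ : GQ) ((σ : GQ) v) with hu'
  have hu'4 : ∀ A, IsBadPlace C.m A → A.valuation (u' - 4) ≤ A.valuation ((4 * N : ℕ) : Qb) :=
    fun A hA => four_sum_sub_le hvc (hvc.mul (hvc.apply _))
      ((hvc.mul (hvc.apply _)).mul ((hvc.apply _).apply _)) A hA
  have hu'0 : u' ≠ 0 := ne_zero_of_four C.two_dvd hNm hu'4
  have hvnorm : v * (σ : GQ) v * (σ : GQ) ((σ : GQ) v) * (σ : GQ) ((σ : GQ) ((σ : GQ) v)) = 1 := by
    rw [hv, map_div₀, map_div₀, map_div₀, hcomm σ τ z' hz'fix,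
      hcomm σ τ _ (fixed_apply hz'fix σ), hcomm σ τ _ (fixed_apply (fixed_apply hz'fix σ) σ),
      div_mul_div_comm, div_mul_div_comm, div_mul_div_comm, ← map_mul, ← map_mul, ← map_mul,
      ← hz'x, show (τ : GQ) ((x : C.M) : Qb) = ((x : C.M) : Qb) from τ.2 ⟨_, (x : C.M).2⟩]
    exact div_self hx0
  have hvu : v * (σ : GQ) u' = u' := by
    simp only [hu', map_add, map_mul, map_one]
    linear_combination hvnorm
  set w := 4 / u' with hw
  have hw0 : w ≠ 0 := div_ne_zero (by norm_num) hu'0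
  have hvfix : ∀ k : C.M.fixingSubgroup, f k = 1 → (k : GQ) v = v := fun k hk => by
    rw [hv, map_div₀, fixed_apply hz'fix τ k hk, hz'fix k hk]
  have hwfix : ∀ k : C.M.fixingSubgroup, f k = 1 → (k : GQ) w = w := fun k hk => by
    simp only [hw, hu', map_div₀, map_add, map_mul, map_one, map_ofNat, hvfix k hk,
      fixed_apply hvfix σ k hk, fixed_apply (fixed_apply hvfix σ) σ k hk]
  have hσw : (σ : GQ) w = v * w := by
    rw [hw, map_div₀, map_ofNat]
    field_simp [(map_ne_zero (σ : GQ)).2 hu'0]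
    linear_combination -hvu
  have hc : w * (τ : GQ) z' = z' * (σ : GQ) w := by
    rw [hσw, hv]
    field_simp
  set yq := ∏ j ∈ range m, ((τ : GQ) ^ j) w with hyq
  have hyσ : (σ : GQ) yq = yq := by
    have h1 : ∀ j : ℕ, (σ : GQ) (((τ : GQ) ^ j) w) =
        ((τ : GQ) ^ (j + 1)) z' / ((τ : GQ) ^ j) z' * ((τ : GQ) ^ j) w := fun j => by
      have h := hcomm σ (τ ^ j) w hwfix
      rw [Subgroup.coe_pow] at h
      rw [h, hσw, map_mul, hv, map_div₀, pow_succ, AlgEquiv.mul_apply]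
    rw [hyq, map_prod]
    simp only [h1]
    have htel : ∀ k, ∏ j ∈ range k, ((τ : GQ) ^ (j + 1)) z' / ((τ : GQ) ^ j) z' =
        ((τ : GQ) ^ k) z' / z' := fun k => by
      induction k with
      | zero => simp [hz'0]
      | succ k ih =>
        rw [prod_range_succ, ih, mul_comm, div_mul_div_cancel₀ ((map_ne_zero _).2 hz'0)]
    rw [prod_mul_distrib, htel, ← Subgroup.coe_pow, hz'fix (τ ^ m) (by rw [map_pow, hτm]),
      div_self hz'0, one_mul]
  have hyτ : (τ : GQ) yq = yq := by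
    have h1 : ((τ : GQ) ^ m) w = w := by
      rw [← Subgroup.coe_pow]
      exact hwfix _ (by rw [map_pow, hτm])
    have h2 := prod_range_succ (fun j => ((τ : GQ) ^ j) w) m
    rw [prod_range_succ', h1, pow_zero, AlgEquiv.one_apply] at h2
    rw [hyq, map_prod]
    simp only [← AlgEquiv.mul_apply, ← pow_succ']
    exact mul_right_cancel₀ hw0 h2
  have hyfix : ∀ k : C.M.fixingSubgroup, f k = 1 → (k : GQ) yq = yq := fun k hk => by
    rw [hyq, map_prod]
    refine prod_congr rfl fun j _ => ?_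
    rw [← Subgroup.coe_pow]
    exact fixed_apply hwfix _ k hk
  have hyM : yq ∈ C.M := mem_of_fixed fun g hg => by
    obtain ⟨b, hb⟩ := hgen ⟨g, hg⟩
    have h1 : ∀ h ∈ ({σ, τ} : Set C.M.fixingSubgroup), (h : GQ) yq = yq := by
      rintro h (rfl | rfl)
      exacts [hyσ, hyτ]
    have h2 := apply_eq_of_hom_eq (g := ⟨g, hg⟩)
      (h := σ ^ (C.χ ⟨g, hg⟩).toAdd.val * τ ^ b) hyfix
      (by rw [map_mul, map_pow, map_pow]; exact hdec _ b hb)
    refine h2.trans ?_
    have hS : σ ^ (C.χ ⟨g, hg⟩).toAdd.val * τ ^ b ∈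
        (MulAction.stabilizer GQ yq).comap C.M.fixingSubgroup.subtype :=
      mul_mem (pow_mem (show σ ∈ _ from hyσ) _) (pow_mem (show τ ∈ _ from hyτ) _)
    exact hS
  have hy0 : yq ≠ 0 := prod_ne_zero_iff.2 fun j _ => (map_ne_zero _).2 hw0
  let y : C.Mˣ := Units.mk0 ⟨yq, hyM⟩ fun h => hy0 (congrArg Subtype.val h)
  have hyc : Close C.m N ((y : C.M) : Qb) :=
    Close.prod (range m) (fun j => ((τ : GQ) ^ j) w) fun j _ => (close_four_div C.two_dvd hNm hu'4).apply _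
  have hyprod : ((y : C.M) : Qb) = ∏ k ∈ range m, ((τ : GQ) ^ k) w := rfl
  have hxprod : ((x : C.M) : Qb) = ∏ k ∈ range 4, ((σ : GQ) ^ k) z' := by
    rw [hz'x]
    simp only [prod_range_succ, prod_range_zero, one_mul, pow_succ, pow_zero, AlgEquiv.mul_apply,
      AlgEquiv.one_apply]
  -- prime by prime
  have hloc : ∀ P, ∃ b : ℕ, normClassTwo n P ^ ord P y = t ^ ((b : ℤ) * ord P y) ∧
      ((4 * m : ℕ) : ℤ) ∣ (m * (C.frobVal P).val : ℕ) * ord P x + (4 * b : ℕ) * ord P y := by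
    intro P
    obtain ⟨A, hA⟩ := exists_place P
    by_cases hbad : IsBadPlace C.m A
    · refine ⟨0, ?_, ?_⟩
      · rw [ord_eq_zero_of_close C hNm hyc hA hbad]
        simp
      · rw [ord_eq_zero_of_close C hNm hyc hA hbad, ord_eq_zero_of_close C
          (dvd_mul_of_dvd_right (dvd_mul_of_dvd_right hNm 4) 4) hx hA hbad]
        simp
    · obtain ⟨l, hl, hlA⟩ := hA.1
      have hlm : ¬ l ∣ C.m := fun h => hbad ⟨l, hl, h, hlA⟩
      have hl2 := C.ne_two_of_not_dvd hlm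
      have hPm : (C.m : 𝓞 C.M) ∉ P.asIdeal := fun h => by
        have h' := (hA.mem_iff (C.m : 𝓞 C.M)).1 h
        rw [show (((((C.m : ℕ) : 𝓞 C.M) : C.M)) : Qb) = (C.m : Qb) from
          map_natCast ((algebraMap C.M Qb).comp (algebraMap (𝓞 C.M) C.M)) C.m] at h'
        have h1 := FermatAgent.Local.val_intCast_eq_one hl hlA (m := (C.m : ℤ))
          fun hd => hlm (Int.natCast_dvd_natCast.1 hd)
        rw [Int.cast_natCast] at h1
        exact absurd h1 h'.ne
      obtain ⟨g, hg, -, -, hgF⟩ := exists_frobenius_over C.M hA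
      obtain ⟨b, hb⟩ := hgen ⟨g, hg⟩
      have hval : C.frobVal P = (C.χ ⟨g, hg⟩).toAdd :=
        C.frobVal_eq hPm ⟨hg, A, fun z => (hA.mem_iff z).trans A.mem_nonunits_iff.symm, hgF⟩
      refine ⟨b, ?_, ?_⟩
      · rw [normClassTwo_eq_cycTwo hl hl2 hlA P hgF, show cycTwo n g = t ^ b from hb,
          ← zpow_natCast]
        exact (zpow_mul t (b : ℤ) (ord P y)).symm
      · rw [hval]
        exact crossing_relation hlev hA
          (fun i hi => C.quartCyc_eq_one_iff.2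
            ⟨C.unramified l hl hlm A hlA i hi, cycTwo_inertia hl hl2 hlA hi⟩)
          (g := ⟨g, hg⟩) hgF (hdec _ b hb) hσ4 hτm hz'0 hw0 hz'fix hwfix hc hxprod hyprod
  choose b hb₁ hb₂ using hloc
  -- reciprocity in the tower
  have hone : ∏ᶠ P, normClassTwo (M := C.M) n P ^ ord P y = 1 := by
    set c : Qb := (((y : C.M) : Qb) - 1) / ((2 ^ n : ℕ) : Qb) with hc'
    have h2n : ((2 ^ n : ℕ) : Qb) ≠ 0 := by simp
    obtain ⟨d, hd, hdc⟩ := exists_odd_mul_integral (c := c) fun A hA => by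
      rw [hc', map_div₀, div_le_one₀ (zero_lt_iff.2 ((map_ne_zero _).2 h2n))]
      exact (hyc.of_dvd hN2) A ⟨2, Nat.prime_two, C.two_dvd, hA⟩
    have hd0 : d ≠ 0 := fun h => hd (h ▸ dvd_zero 2)
    let cM : C.M := (d : C.M) * (((y : C.M) - 1) / ((2 ^ n : ℕ) : C.M))
    have hcM : ((cM : C.M) : Qb) = (d : Qb) * c := by simp [cM, hc']; left; congr 1
    obtain ⟨e, he⟩ := HeightOneSpectrum.mem_integers_of_valuation_le_one (R := 𝓞 C.M) C.M cM fun P => by
      obtain ⟨A, hA⟩ := exists_place P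
      rw [← hA.val_le_one_iff, hcM]
      exact hdc A hA.1
    refine finprod_normClassTwo_eq_one n y (a := (d : 𝓞 C.M) + ((2 ^ n : ℕ) : 𝓞 C.M) * e)
      (b := (d : 𝓞 C.M)) (by simpa using hd0) ?_ ?_ ⟨e, by ring⟩
    · rw [map_add, map_mul, map_natCast, map_natCast, he]
      have : ((2 ^ n : ℕ) : C.M) ≠ 0 := by simp
      simp only [cM]
      field_simp
      ring
    · rw [Ideal.absNorm_span_natCast]
      exact (Nat.Coprime.pow _ _ ((Nat.prime_two.coprime_iff_not_dvd.2 hd).symm))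
  set s := (finite_setOf_ord_ne_zero x).toFinset ∪ (finite_setOf_ord_ne_zero y).toFinset
  have hs : ∀ P, P ∉ s → ord P x = 0 ∧ ord P y = 0 := fun P hP => by simpa [s] using hP
  rw [finprod_congr hb₁, finprod_eq_prod_of_mulSupport_subset _ (s := s) (fun P hP => by
    by_contra h
    exact hP (show t ^ ((b P : ℤ) * ord P y) = 1 by
      rw [(hs P (by simpa using h)).2, mul_zero, zpow_zero]))] at hone
  have hsum : (m : ℤ) ∣ ∑ P ∈ s, (b P : ℤ) * ord P y := by
    refine orderOf_dvd_iff_zpow_eq_one.2 ?_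
    rw [← hone]
    exact (map_sum (zpowersHom (Two n) t).toAdditiveRight _ s)
  obtain ⟨k, hk⟩ := hsum
  have htot := Finset.dvd_sum fun P (_ : P ∈ s) => hb₂ P
  simp only [Nat.cast_mul, Nat.cast_ofNat, sum_add_distrib, mul_assoc, ← mul_sum] at htot
  rw [hk] at htot
  have h4 : (4 : ℤ) ∣ ∑ P ∈ s, ((C.frobVal P).val : ℤ) * ord P x := by
    have h4' : (4 : ℤ) * m ∣ (4 : ℤ) * ((m : ℤ) * k) := ⟨k, by ring⟩
    obtain ⟨q, hq⟩ := (dvd_add_left h4').1 htot
    refine ⟨q, mul_left_cancel₀ (Int.natCast_ne_zero.2 (orderOf_pos t).ne') ?_⟩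
    linear_combination hq
  rw [artin, finsum_eq_sum_of_support_subset _ (s := s) (fun P hP => by
    by_contra h
    exact hP (show ord P x • C.frobVal P = 0 by rw [(hs P (by simpa using h)).1, zero_smul]))]
  have := (ZMod.intCast_zmod_eq_zero_iff_dvd _ 4).2 h4
  rw [Int.cast_sum] at this
  rw [← this]
  refine sum_congr rfl fun P _ => ?_
  rw [zsmul_eq_mul, Int.cast_mul, mul_comm, Int.cast_natCast, ZMod.natCast_val, ZMod.cast_id]

/-- **Reciprocity near `1`.** -/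
theorem exists_artin_eq_zero : ∃ K : ℕ, (C.m ∣ K ∧ K ≠ 0) ∧
    ∀ x : C.Mˣ, Close C.m K ((x : C.M) : Qb) → C.artin x = 0 := by
  obtain ⟨σ, hσ, hσc⟩ := C.gen
  obtain ⟨r₁, h₁⟩ := exists_sqrt_char C.parity C.exists_level_parity
  have := finiteDimensional_kerField C.parity C.exists_level_parity
  obtain ⟨r₂, h₂⟩ := exists_sqrt_char C.half (by
    obtain ⟨L, hL, h⟩ := C.level
    exact ⟨L, hL, fun g hg => (C.half_eq_one_iff g).2 (h _ hg)⟩)
  obtain ⟨R₁, hR₁0, hR₁⟩ := exists_nat_val_le h₁.2.1 h₁.1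
  obtain ⟨R₂, hR₂0, hR₂⟩ := exists_nat_val_le h₂.2.1 h₂.1
  refine ⟨4 * C.m * (4 * R₂) * (4 * R₁), ⟨⟨64 * (R₂ * R₁), by ring⟩, by simp [hR₁0, hR₂0, C.m_ne_zero]⟩, fun x hx => ?_⟩
  obtain ⟨n, z, hn, hz, hzx, hzc⟩ := C.exists_quartic_norm σ hσ hσc h₁ h₂ hR₁ hR₂ hx
  obtain ⟨r, hrM, hr0, hr, hxr⟩ := exists_close_fourth (x : C.M).2
    (N := 4 * C.m * (4 * R₂) * (4 * R₁)) C.two_dvd ⟨4 * (R₂ * R₁), by ring⟩ hx n
  let ru : C.Mˣ := Units.mk0 ⟨r, hrM⟩ fun h => hr0 (congrArg Subtype.val h)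
  have hxr' : (((x / ru ^ 4 : C.Mˣ) : C.M) : Qb) = ((x : C.M) : Qb) / r ^ 4 := by simp [ru]
  have key : C.artin (x / ru ^ 4) = 0 := by
    refine C.artin_eq_zero_of_norm σ hσ hσc hn (z := z / r) (fun g hg => ?_) ?_
      (hzc.div hr (dvd_mul_left C.m 4)) (N := 4 * (R₂ * R₁) * C.m * C.m ^ n) ?_ ?_ ?_
    · rw [map_div₀, hz g hg, show (g : GQ) r = r from g.2 ⟨r, hrM⟩]
    · rw [hxr', hzx]
      simp only [map_div₀, prod_div_distrib, prod_range_succ, prod_range_zero, one_mul]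
      congr 1
      simp only [show ∀ k : ℕ, ((σ : GQ) ^ k) r = r from fun k => (pow_mem σ.2 k) ⟨r, hrM⟩]
      ring
    · exact dvd_mul_of_dvd_left (dvd_mul_left _ _) _
    · exact dvd_mul_of_dvd_right (pow_dvd_pow_of_dvd C.two_dvd n) _
    · rw [hxr']
      exact hxr.of_dvd ⟨1, by ring⟩
  have h := C.artin_mul (x / ru ^ 4) (ru ^ 4)
  rwa [div_mul_cancel, key, artin_fourth, add_zero] at h

end QuarticChar

end FermatAgent.LTG.ClassField
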