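import Fermat.Agent.LT.ClassField.IdealChar
import Fermat.Agent.LT.General.ClassField.Reciprocity

/-!
# The character on ideals attached to a quartic character, general bad set
-/

set_option autoImplicit false

noncomputable section

open NumberField IsDedekindDomain UniqueFactorizationMonoid

namespace FermatAgent.LTG.ClassField

open FermatAgent.Duality.Global (Over exists_over exists_place ord finite_setOf_ord_ne_zero)
open FermatAgent.LT.ClassField (unitPow unitPow_two unitPow_neg_mul eval_span)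

local notation "Qb" => AlgebraicClosure ℚ

attribute [local instance] FermatAgent.RT.isGalois_algClosureRat
  FermatAgent.Duality.Global.numberField_of_finite

namespace QuarticChar

variable (C : QuarticChar)

/-- The value at one ideal, meaningful at primes. -/
def xiPrime (I : Ideal (𝓞 C.M)) : ℂ :=
  open scoped Classical in
  if h : I.IsPrime ∧ I ≠ ⊥ then unitPow (Multiplicative.ofAdd (C.frobVal ⟨I, h.1, h.2⟩)) else 1

theorem sup_bad_mul (I J : Ideal (𝓞 C.M)) : I * J ⊔ Ideal.span {(C.m : 𝓞 C.M)} = ⊤ ↔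
    I ⊔ Ideal.span {(C.m : 𝓞 C.M)} = ⊤ ∧ J ⊔ Ideal.span {(C.m : 𝓞 C.M)} = ⊤ := by
  simp only [← Ideal.isCoprime_iff_sup_eq]
  exact IsCoprime.mul_left_iff

theorem ne_bot_of_sup_bad {I : Ideal (𝓞 C.M)} (h : I ⊔ Ideal.span {(C.m : 𝓞 C.M)} = ⊤) : I ≠ ⊥ := by
  rintro rfl
  rw [bot_sup_eq, Ideal.span_singleton_eq_top] at h
  obtain ⟨A, hA⟩ := FermatAgent.RT.exists_liesOverPrime Nat.prime_two
  obtain ⟨P, hP⟩ := exists_over (K := C.M) (A := A) ⟨2, Nat.prime_two, hA⟩
  exact P.isPrime.ne_top (Ideal.eq_top_of_isUnit_mem _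
    (natCast_mem_of_dvd C.two_dvd (hP.natCast_mem hA)) h)

/-- The character on ideals: zero at those not prime to `m`. -/
def xi : Ideal (𝓞 C.M) →*₀ ℂ where
  toFun I := open scoped Classical in
    if I ⊔ Ideal.span {(C.m : 𝓞 C.M)} = ⊤ then ((normalizedFactors I).map C.xiPrime).prod else 0
  map_zero' := if_neg fun h => C.ne_bot_of_sup_bad h rfl
  map_one' := by
    rw [if_pos (by simp), normalizedFactors_one]
    simp
  map_mul' I J := by
    by_cases h : I * J ⊔ Ideal.span {(C.m : 𝓞 C.M)} = ⊤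
    · obtain ⟨hI, hJ⟩ := (C.sup_bad_mul I J).1 h
      rw [if_pos h, if_pos hI, if_pos hJ,
        normalizedFactors_mul (C.ne_bot_of_sup_bad hI) (C.ne_bot_of_sup_bad hJ),
        Multiset.map_add, Multiset.prod_add]
    · rw [if_neg h]
      by_cases hI : I ⊔ Ideal.span {(C.m : 𝓞 C.M)} = ⊤
      · rw [if_neg fun hJ => h ((C.sup_bad_mul I J).2 ⟨hI, hJ⟩), mul_zero]
      · rw [if_neg hI, zero_mul]

theorem xi_eq_zero (I : Ideal (𝓞 C.M)) : C.xi I = 0 ↔ I ⊔ Ideal.span {(C.m : 𝓞 C.M)} ≠ ⊤ := by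
  classical
  show (if I ⊔ Ideal.span {(C.m : 𝓞 C.M)} = ⊤ then _ else (0 : ℂ)) = 0 ↔ _
  split_ifs with h
  · refine ⟨fun h0 => ?_, fun hn => absurd h hn⟩
    obtain ⟨J, -, hJ0⟩ := Multiset.mem_map.1 (Multiset.prod_eq_zero_iff.1 h0)
    simp only [xiPrime] at hJ0
    split_ifs at hJ0
    · exact absurd hJ0 (pow_ne_zero _ Complex.I_ne_zero)
    · exact absurd hJ0 one_ne_zero
  · exact ⟨fun _ => h, fun _ => rfl⟩

theorem sup_bad_iff {P : HeightOneSpectrum (𝓞 C.M)} :
    P.asIdeal ⊔ Ideal.span {(C.m : 𝓞 C.M)} = ⊤ ↔ (C.m : 𝓞 C.M) ∉ P.asIdeal := by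
  refine ⟨fun h hm => P.isPrime.ne_top (top_unique ?_), fun h =>
    P.isMaximal.1.2 _ (left_lt_sup.2 fun hle => h ((Ideal.span_singleton_le_iff_mem _).1 hle))⟩
  rw [← h]
  exact sup_le le_rfl ((Ideal.span_singleton_le_iff_mem _).2 hm)

theorem xi_prime {P : HeightOneSpectrum (𝓞 C.M)} (hm : (C.m : 𝓞 C.M) ∉ P.asIdeal) :
    C.xi P.asIdeal = unitPow (Multiplicative.ofAdd (C.frobVal P)) := by
  classical
  show (if P.asIdeal ⊔ Ideal.span {(C.m : 𝓞 C.M)} = ⊤ then _ else (0 : ℂ)) = _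
  rw [if_pos (C.sup_bad_iff.2 hm), normalizedFactors_irreducible P.irreducible,
    normalize_eq, Multiset.map_singleton, Multiset.prod_singleton, xiPrime,
    dif_pos ⟨P.isPrime, P.ne_bot⟩]

/-- The value at a principal ideal prime to `m`. -/
theorem xi_span {a : 𝓞 C.M} (ha : a ≠ 0)
    (hm : ∀ P : HeightOneSpectrum (𝓞 C.M), (C.m : 𝓞 C.M) ∈ P.asIdeal → a ∉ P.asIdeal) (x : C.Mˣ)
    (hx : algebraMap (𝓞 C.M) C.M a = x) :
    C.xi (Ideal.span {a}) = unitPow (Multiplicative.ofAdd (C.artin x)) := by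
  exact eval_span (φ := C.xi.toMonoidHom) ha x hx fun P hP => C.xi_prime fun h => hm P h hP

end QuarticChar

end FermatAgent.LTG.ClassField
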