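import Fermat.Agent.LT.General.ClassField.IdealChar

/-!
# The residue character of the ideal character

The value at a principal ideal only depends on the generator modulo a power of `m`.
-/

set_option autoImplicit false

noncomputable section

open NumberField IsDedekindDomain

namespace FermatAgent.LTG.ClassField

open FermatAgent.Duality.Global (Over exists_over exists_place ord)
open FermatAgent.LT.ClassField (unitPow)

local notation "Qb" => AlgebraicClosure ℚ

attribute [local instance] FermatAgent.RT.isGalois_algClosureRat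
  FermatAgent.Duality.Global.numberField_of_finite

/-- Units of a quotient by an ideal. -/
theorem isUnit_mk_iff {R : Type*} [CommRing R] (I : Ideal R) (x : R) :
    IsUnit (Ideal.Quotient.mk I x) ↔ Ideal.span {x} ⊔ I = ⊤ := by
  rw [Ideal.eq_top_iff_one, Ideal.mem_span_singleton_sup]
  constructor
  · intro h
    obtain ⟨y, hy⟩ := h.exists_right_inv
    obtain ⟨a, rfl⟩ := Ideal.Quotient.mk_surjective y
    rw [← map_mul, ← map_one (Ideal.Quotient.mk I), Ideal.Quotient.eq] at hy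
    exact ⟨a, 1 - x * a, by rw [← neg_sub]; exact neg_mem hy, by ring⟩
  · rintro ⟨a, b, hb, h⟩
    refine IsUnit.of_mul_eq_one (Ideal.Quotient.mk I a) ?_
    rw [← map_mul, ← map_one (Ideal.Quotient.mk I), Ideal.Quotient.eq,
      show x * a - 1 = -b by rw [← h]; ring]
    exact neg_mem hb

theorem span_sup_pow_iff {R : Type*} [CommRing R] (x a : R) {r : ℕ} (hr : r ≠ 0) :
    Ideal.span {x} ⊔ Ideal.span {a ^ r} = ⊤ ↔ Ideal.span {x} ⊔ Ideal.span {a} = ⊤ := by
  rw [← Ideal.isCoprime_iff_sup_eq, ← Ideal.isCoprime_iff_sup_eq,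
    Ideal.isCoprime_span_singleton_iff, Ideal.isCoprime_span_singleton_iff,
    IsCoprime.pow_right_iff (Nat.pos_of_ne_zero hr)]

/-- At a bad place a high power of `m` is smaller than a given number. -/
theorem val_pow_le {m K : ℕ} (hK : K ≠ 0) {A : ValuationSubring Qb} (hA : IsBadPlace m A) {r : ℕ}
    (hr : K ≤ r) : A.valuation ((m ^ r : ℕ) : Qb) ≤ A.valuation (K : Qb) := by
  obtain ⟨l, hl, hlm, hlA⟩ := hA
  obtain ⟨e, u, hu, he⟩ := Nat.exists_eq_pow_mul_and_not_dvd hK l hl.ne_one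
  have hle : e ≤ r := by
    refine le_trans ((Nat.lt_pow_self hl.one_lt).le.trans ?_) hr
    exact Nat.le_of_dvd (Nat.pos_of_ne_zero hK) ⟨u, he⟩
  have hu1 : A.valuation (u : Qb) = 1 := by
    simpa using FermatAgent.Local.val_intCast_eq_one hl hlA (m := (u : ℤ))
      fun h => hu (Int.natCast_dvd_natCast.1 h)
  rw [he, Nat.cast_mul, map_mul, hu1, mul_one]
  obtain ⟨k, hk⟩ := (pow_dvd_pow_of_dvd hlm e).trans (pow_dvd_pow m hle)
  rw [hk, Nat.cast_mul, map_mul]
  exact mul_le_of_le_one_right' ((A.valuation_le_one_iff _).2 (natCast_mem A k))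

namespace QuarticChar

variable (C : QuarticChar)

/-- An exponent modulo which the values at principal ideals are periodic. -/
theorem exists_exponent : ∃ r : ℕ, r ≠ 0 ∧ ∀ x y : 𝓞 C.M,
    Ideal.Quotient.mk (Ideal.span {((C.m ^ r : ℕ) : 𝓞 C.M)}) x = Ideal.Quotient.mk _ y →
      C.xi (Ideal.span {x}) = C.xi (Ideal.span {y}) := by
  obtain ⟨K, ⟨-, hK⟩, hKx⟩ := C.exists_artin_eq_zero
  refine ⟨K, hK, fun x y hxy => ?_⟩
  set I := Ideal.span {((C.m ^ K : ℕ) : 𝓞 C.M)}
  have hcop : ∀ z : 𝓞 C.M, C.xi (Ideal.span {z}) = 0 ↔ ¬ IsUnit (Ideal.Quotient.mk I z) := fun z => by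
    rw [C.xi_eq_zero, Ne, isUnit_mk_iff, show I = Ideal.span {((C.m : 𝓞 C.M)) ^ K} by
      simp [I], span_sup_pow_iff _ _ hK]
  by_cases hy : C.xi (Ideal.span {y}) = 0
  · rw [hy, hcop, hxy, ← hcop]
    exact hy
  have hx : C.xi (Ideal.span {x}) ≠ 0 := by rwa [Ne, hcop, hxy, ← hcop]
  have hnot : ∀ z : 𝓞 C.M, C.xi (Ideal.span {z}) ≠ 0 →
      z ≠ 0 ∧ ∀ P : HeightOneSpectrum (𝓞 C.M), (C.m : 𝓞 C.M) ∈ P.asIdeal → z ∉ P.asIdeal := by
    intro z hz
    have htop : Ideal.span {z} ⊔ Ideal.span {(C.m : 𝓞 C.M)} = ⊤ := by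
      by_contra h
      exact hz ((C.xi_eq_zero _).2 h)
    refine ⟨fun h => hz (by rw [h, Ideal.span_singleton_zero]; exact map_zero C.xi), fun P hP hzP => P.isPrime.ne_top (top_unique ?_)⟩
    rw [← htop]
    exact sup_le ((Ideal.span_singleton_le_iff_mem _).2 hzP)
      ((Ideal.span_singleton_le_iff_mem _).2 hP)
  obtain ⟨hx0, hxP⟩ := hnot x hx
  obtain ⟨hy0, hyP⟩ := hnot y hy
  let ux : C.Mˣ := Units.mk0 (algebraMap (𝓞 C.M) C.M x) (by simpa using hx0)
  let uy : C.Mˣ := Units.mk0 (algebraMap (𝓞 C.M) C.M y) (by simpa using hy0)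
  rw [C.xi_span hx0 hxP ux rfl, C.xi_span hy0 hyP uy rfl]
  suffices h : C.artin (ux / uy) = 0 by
    have e := C.artin_mul (ux / uy) uy
    rw [div_mul_cancel, h, zero_add] at e
    rw [e]
  refine hKx _ fun A hA => ?_
  obtain ⟨t, ht⟩ := Ideal.mem_span_singleton'.1 (Ideal.Quotient.eq.1 hxy)
  obtain ⟨P, hP⟩ := exists_over (K := C.M) hA.isPlace
  have hmP : (C.m : 𝓞 C.M) ∈ P.asIdeal := by
    obtain ⟨l, hl, hlm, hlA⟩ := hA
    exact natCast_mem_of_dvd hlm (hP.natCast_mem hlA)
  have hyv : A.valuation ((y : C.M) : Qb) = 1 := le_antisymm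
    ((A.valuation_le_one_iff _).2 (RT.mem_of_isIntegral_int A
      ((RingOfIntegers.isIntegral_coe y).map (C.M.val.restrictScalars ℤ))))
    (not_lt.1 fun h => hyP P hmP ((hP.mem_iff y).2 h))
  have hy0' : ((y : C.M) : Qb) ≠ 0 := fun h => by rw [h, map_zero] at hyv; exact zero_ne_one hyv
  rw [show (((ux / uy : C.Mˣ) : C.M) : Qb) = ((x : C.M) : Qb) / ((y : C.M) : Qb) by simp [ux, uy],
    div_sub_one hy0', map_div₀, hyv, div_one]
  have e : ((x : C.M) : Qb) - ((y : C.M) : Qb) = ((t : C.M) : Qb) * ((C.m ^ K : ℕ) : Qb) := by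
    have h := congrArg (fun z : 𝓞 C.M => ((z : C.M) : Qb)) ht
    simp only [map_sub, map_mul, map_natCast, AddSubgroupClass.coe_sub, MulMemClass.coe_mul,
      SubringClass.coe_natCast] at h
    exact h.symm
  rw [e, map_mul]
  exact (mul_le_of_le_one_left' ((A.valuation_le_one_iff _).2 (RT.mem_of_isIntegral_int A
    ((RingOfIntegers.isIntegral_coe t).map (C.M.val.restrictScalars ℤ))))).trans
    (val_pow_le hK hA le_rfl)

/-- The exponent of the modulus. -/
def modExp : ℕ := C.exists_exponent.choose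

theorem modExp_ne_zero : C.modExp ≠ 0 := C.exists_exponent.choose_spec.1

/-- The ideal of the modulus. -/
abbrev modulus : Ideal (𝓞 C.M) := Ideal.span {((C.m ^ C.modExp : ℕ) : 𝓞 C.M)}

theorem xi_congr {x y : 𝓞 C.M}
    (h : Ideal.Quotient.mk C.modulus x = Ideal.Quotient.mk C.modulus y) :
    C.xi (Ideal.span {x}) = C.xi (Ideal.span {y}) :=
  C.exists_exponent.choose_spec.2 x y h

/-- A representative of a residue. -/
def rep (q : 𝓞 C.M ⧸ C.modulus) : 𝓞 C.M := (Ideal.Quotient.mk_surjective (I := C.modulus) q).choose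

theorem mk_rep (q : 𝓞 C.M ⧸ C.modulus) : Ideal.Quotient.mk C.modulus (C.rep q) = q :=
  (Ideal.Quotient.mk_surjective (I := C.modulus) q).choose_spec

/-- The residue character. -/
def resChar : MulChar (𝓞 C.M ⧸ C.modulus) ℂ where
  toFun q := C.xi (Ideal.span {C.rep q})
  map_one' := by
    rw [C.xi_congr (y := 1) ((C.mk_rep 1).trans (map_one _).symm), Ideal.span_singleton_one,
      ← Ideal.one_eq_top, map_one]
  map_mul' a b := by
    rw [C.xi_congr (y := C.rep a * C.rep b) (by rw [C.mk_rep, map_mul, C.mk_rep, C.mk_rep]),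
      ← Ideal.span_singleton_mul_span_singleton, map_mul]
  map_nonunit' a ha := by
    rw [C.xi_eq_zero]
    intro h
    refine ha ?_
    rw [← C.mk_rep a, isUnit_mk_iff, show C.modulus = Ideal.span {((C.m : 𝓞 C.M)) ^ C.modExp} by
      simp [modulus], span_sup_pow_iff _ _ C.modExp_ne_zero]
    exact h

theorem resChar_mk (x : 𝓞 C.M) :
    C.resChar (Ideal.Quotient.mk C.modulus x) = C.xi (Ideal.span {x}) :=
  C.xi_congr (C.mk_rep _)

end QuarticChar

end FermatAgent.LTG.ClassField
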