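import Fermat.Agent.LT.General.ClassField.Data
import Fermat.Agent.LT.General.ClassField.Frob
import Fermat.Agent.LT.General.ClassField.ResidueChar
import Fermat.Agent.GalRep.Density.Frobenius
import Fermat.Agent.CFT.ArtinUnramified

/-!
# Existence of the class field theoretic input of the dihedral form, general bad set
-/

set_option autoImplicit false

noncomputable section

open NumberField IsDedekindDomain
open FermatAgent.LT (IsFrobOver exists_frobenius_over q8Trace)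

namespace FermatAgent.LTG.Setup

open FermatAgent.Duality.Global (Over exists_over exists_place toZB)
open FermatAgent.LT.ClassField (unitPow unitPow_two unitPow_neg_mul)

local notation "Qb" => AlgebraicClosure ℚ
local notation "GQ" => AlgebraicClosure ℚ ≃ₐ[ℚ] AlgebraicClosure ℚ

attribute [local instance] FermatAgent.RT.isGalois_algClosureRat

variable (S : Setup)

/-- The character on the ideals of `M`. -/
def xiM : Ideal (𝓞 S.M) →*₀ ℂ := S.quartic.xi

theorem xiM_eq_zero (J : Ideal (𝓞 S.M)) :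
    S.xiM J = 0 ↔ J ⊔ Ideal.span {(S.m : 𝓞 S.M)} ≠ ⊤ := S.quartic.xi_eq_zero J

theorem xiM_prime {Q : HeightOneSpectrum (𝓞 S.M)} (hQ : (S.m : 𝓞 S.M) ∉ Q.asIdeal) :
    S.xiM Q.asIdeal = unitPow (Multiplicative.ofAdd (S.quartic.frobVal Q)) := S.quartic.xi_prime hQ

theorem xiM_pow_four (J : Ideal (𝓞 S.M)) (hJ : J ⊔ Ideal.span {(S.m : 𝓞 S.M)} = ⊤) :
    S.xiM J ^ 4 = 1 := by
  induction J using UniqueFactorizationMonoid.induction_on_prime with
  | h₁ => exact absurd rfl (S.quartic.ne_bot_of_sup_bad hJ)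
  | h₂ x hx =>
    obtain rfl : x = 1 := by simpa using Ideal.isUnit_iff.mp hx
    rw [map_one, one_pow]
  | h₃ J p hJ0 hp ih =>
    obtain ⟨hpm, hJm⟩ := (S.quartic.sup_bad_mul p J).1 hJ
    let Q : HeightOneSpectrum (𝓞 S.M) := ⟨p, Ideal.isPrime_of_prime hp, hp.ne_zero⟩
    have hQm : (S.m : 𝓞 S.M) ∉ Q.asIdeal := (S.quartic.sup_bad_iff (P := Q)).1 hpm
    rw [map_mul, mul_pow, ih hJm, mul_one, show S.xiM p = S.xiM Q.asIdeal from rfl, S.xiM_prime hQm,
      ← map_pow, ← ofAdd_nsmul]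
    have h4 : ∀ a : ZMod 4, 4 • a = 0 := by decide
    rw [h4, ofAdd_zero, map_one]

/-- Conjugation inverts the character. -/
theorem xiM_conj {g : GQ} (hg : g ∈ S.F.fixingSubgroup) (hgM : g ∉ S.M.fixingSubgroup)
    (J : Ideal (𝓞 S.M)) (hJ : J ⊔ Ideal.span {(S.m : 𝓞 S.M)} = ⊤) :
    S.xiM J * S.xiM (J.map (S.sigmaO hg)) = 1 := by
  induction J using UniqueFactorizationMonoid.induction_on_prime with
  | h₁ => exact absurd rfl (S.quartic.ne_bot_of_sup_bad hJ)
  | h₂ x hx =>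
    obtain rfl : x = 1 := by simpa using Ideal.isUnit_iff.mp hx
    rw [Ideal.one_eq_top, Ideal.map_top, ← Ideal.one_eq_top, map_one, one_mul]
  | h₃ J p hJ0 hp ih =>
    obtain ⟨hpm, hJm⟩ := (S.quartic.sup_bad_mul p J).1 hJ
    let Q : HeightOneSpectrum (𝓞 S.M) := ⟨p, Ideal.isPrime_of_prime hp, hp.ne_zero⟩
    have hQm : (S.m : 𝓞 S.M) ∉ Q.asIdeal := (S.quartic.sup_bad_iff (P := Q)).1 hpm
    obtain ⟨hm', -, hneg⟩ := S.conjPrime_frobVal hg hgM hQm
    have h := ih hJm
    rw [Ideal.map_mul, map_mul, map_mul, mul_mul_mul_comm, h, mul_one,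
      show S.xiM p = S.xiM Q.asIdeal from rfl,
      show S.xiM (p.map (S.sigmaO hg)) = S.xiM (S.conjPrime hg hgM Q).asIdeal from rfl,
      S.xiM_prime hQm, S.xiM_prime hm', hneg, unitPow_neg_mul]

/-- The fibre of the relative norm over a split prime. -/
theorem fibre_split {g : GQ} (hg : g ∈ S.F.fixingSubgroup) (hgM : g ∉ S.M.fixingSubgroup)
    {Q : HeightOneSpectrum (𝓞 S.M)} {J : Ideal (𝓞 S.M)}
    (h : J * J.map (S.sigmaO hg) = Q.asIdeal * (S.conjPrime hg hgM Q).asIdeal) :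
    J = Q.asIdeal ∨ J = (S.conjPrime hg hgM Q).asIdeal := by
  have key : ∀ K : Ideal (𝓞 S.M), K * K.map (S.sigmaO hg) =
      Q.asIdeal * (S.conjPrime hg hgM Q).asIdeal → Q.asIdeal ∣ K → K = Q.asIdeal := by
    rintro K hK ⟨K', rfl⟩
    rw [Ideal.map_mul, mul_mul_mul_comm] at hK
    have hne : Q.asIdeal * (S.conjPrime hg hgM Q).asIdeal ≠ 0 :=
      mul_ne_zero Q.ne_bot (S.conjPrime hg hgM Q).ne_bot
    have h1 : K' * K'.map (S.sigmaO hg) = 1 :=
      mul_left_cancel₀ hne (hK.trans (mul_one _).symm)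
    rw [Ideal.one_eq_top] at h1
    have : K' = ⊤ := top_unique (h1 ▸ Ideal.mul_le_left)
    rw [this, Ideal.mul_top]
  have hdvd : Q.asIdeal ∣ J * J.map (S.sigmaO hg) := h ▸ dvd_mul_right _ _
  rcases (Q.prime.dvd_or_dvd hdvd) with hQ | hQ
  · exact Or.inl (key J h hQ)
  · right
    have h' : J.map (S.sigmaO hg) * (J.map (S.sigmaO hg)).map (S.sigmaO hg) =
        Q.asIdeal * (S.conjPrime hg hgM Q).asIdeal := by
      rw [S.map_map_sigmaO hg hgM, mul_comm, h]
    have e := key _ h' hQ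
    rw [← S.map_map_sigmaO hg hgM J, e]
    rfl

/-- The fibre of the relative norm over an inert prime is empty. -/
theorem fibre_inert {g : GQ} (hg : g ∈ S.F.fixingSubgroup) (hgM : g ∉ S.M.fixingSubgroup)
    {Q : HeightOneSpectrum (𝓞 S.M)} {J : Ideal (𝓞 S.M)}
    (h : J * J.map (S.sigmaO hg) = Q.asIdeal) : False := by
  refine Q.isPrime.ne_top ?_
  rcases Q.irreducible.isUnit_or_isUnit h.symm with hu | hu
  · rw [← h, Ideal.isUnit_iff.1 hu, Ideal.map_top, Ideal.mul_top]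
  · have hJ := Ideal.isUnit_iff.1 hu
    rw [← h, ← S.map_map_sigmaO hg hgM J, hJ, Ideal.map_top, Ideal.map_top, Ideal.mul_top]

/-- The value on the extension of a prime of `F`. -/
theorem xiM_base {g : GQ} (hg : g ∈ S.F.fixingSubgroup) (hgM : g ∉ S.M.fixingSubgroup)
    (q : HeightOneSpectrum (𝓞 S.F)) (hq : (S.m : 𝓞 S.F) ∉ q.asIdeal) :
    ((q.asIdeal.map (algebraMap (𝓞 S.F) (𝓞 S.M))).IsPrime →
        S.xiM (q.asIdeal.map (algebraMap (𝓞 S.F) (𝓞 S.M))) = -1) ∧
      (¬ (q.asIdeal.map (algebraMap (𝓞 S.F) (𝓞 S.M))).IsPrime →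
        S.xiM (q.asIdeal.map (algebraMap (𝓞 S.F) (𝓞 S.M))) = 1) := by
  obtain ⟨A, hA⟩ := exists_place q
  obtain ⟨τ, hτ, -, -, hτA⟩ := exists_frobenius_over S.F hA
  obtain ⟨Q, hQm, hcase⟩ := S.splitting hg hgM hq hA hτ hτA
  rcases hcase with ⟨hmap, -, hval⟩ | ⟨-, hmap, -⟩
  · rw [hmap]
    refine ⟨fun _ => ?_, fun h => absurd Q.isPrime h⟩
    rw [S.xiM_prime hQm, hval, unitPow_two]
  · obtain ⟨hm', -, hneg⟩ := S.conjPrime_frobVal hg hgM hQm
    rw [hmap]
    refine ⟨fun h => ?_, fun _ => ?_⟩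
    · exfalso
      rcases (h.mul_le.1 le_rfl) with hle | hle
      · have e := le_antisymm hle Ideal.mul_le_left
        refine (S.conjPrime hg hgM Q).isPrime.ne_top ?_
        rw [← Ideal.one_eq_top]
        exact mul_left_cancel₀ Q.ne_bot (e.symm.trans (mul_one _).symm)
      · have e := le_antisymm hle Ideal.mul_le_right
        refine Q.isPrime.ne_top ?_
        rw [← Ideal.one_eq_top]
        exact mul_right_cancel₀ (S.conjPrime hg hgM Q).ne_bot
          (e.symm.trans (one_mul _).symm)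
    · rw [map_mul, S.xiM_prime hQm, S.xiM_prime hm', hneg, unitPow_neg_mul]

/-- Some value is a primitive fourth root of unity. -/
theorem exists_xiM_sq : ∃ J : Ideal (𝓞 S.M),
    J ⊔ Ideal.span {(S.m : 𝓞 S.M)} = ⊤ ∧ S.xiM J ^ 2 = -1 := by
  obtain ⟨σ, hσ⟩ := S.surjective quartGen
  obtain ⟨p, hp, hpS, A, hA, τ, hτ, n, k, hn, hk⟩ :=
    FermatAgent.GalRep.exists_isFrobeniusAt_map_pow_eq S.ρ S.finiteLevel σ
      (S := {p : ℕ | p ∣ S.m}) ((Set.finite_le_nat S.m).subset
        fun p hp => Nat.le_of_dvd (Nat.pos_of_ne_zero S.m_ne_zero) hp)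
  rw [map_pow, hσ] at hk
  rw [map_pow, hσ, ← hk, ← pow_mul] at hn
  have hodd : k % 2 = 1 := by
    have h4 : (k * n) % 4 = 1 % 4 := by
      have h := pow_eq_pow_iff_modEq.1 (hn.trans (pow_one quartGen).symm)
      rw [orderOf_quartGen] at h
      exact h
    rw [Nat.mul_mod] at h4
    rcases Nat.mod_two_eq_zero_or_one k with h | h
    · exfalso
      have : k % 4 = 0 ∨ k % 4 = 2 := by omega
      rcases this with e | e <;> rw [e] at h4 <;> omega
    · exact h
  have hτM : τ ∈ S.M.fixingSubgroup := S.mem_fix_M.2 (hk ▸ Subgroup.pow_mem _ (Subgroup.mem_zpowers _) k)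
  obtain ⟨P, hP⟩ := exists_over (K := S.M) ⟨p, hp, hA⟩
  have hPm : (S.m : 𝓞 S.M) ∉ P.asIdeal := fun h => by
    rw [← hP.2, Ideal.mem_comap, map_natCast, ← Int.cast_natCast,
      FermatAgent.RT.intCast_mem_centre_iff hp hA, Int.natCast_dvd_natCast] at h
    exact hpS h
  have hN : Ideal.absNorm P.asIdeal = p := by
    refine le_antisymm (CFT.absNorm_le_of_forall_pow_sub_mem P hp.one_lt fun x => ?_) ?_
    · have h := TW.frobenius_pow_congr hτ 1 (toZB S.M x)
      rw [pow_one, pow_one, Duality.Global.toZB_smul_of_mem hτM] at h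
      rw [← hP.2, Ideal.mem_comap, map_sub, map_pow]
      rw [← neg_mem_iff, neg_sub]
      exact h
    · obtain ⟨q, f, hq, hqP, hf, -, he⟩ := CFT.exists_absNorm_eq_pow P
      have hqp : q = p := by
        rw [← hP.2, Ideal.mem_comap, map_natCast, ← Int.cast_natCast,
          FermatAgent.RT.intCast_mem_centre_iff hp hA, Int.natCast_dvd_natCast,
          Nat.prime_dvd_prime_iff_eq hp hq] at hqP
        exact hqP.symm
      rw [he, hqp]
      exact Nat.le_self_pow hf.ne' p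
  refine ⟨P.asIdeal, (S.quartic.sup_bad_iff (P := P)).2 hPm, ?_⟩
  rw [S.xiM_prime hPm, S.frobVal_of_place hPm hP hτM (by rw [hN]; exact hτ),
    S.quartChi_spec (g := ⟨τ, hτM⟩) (k := (k : ℤ)) (by rw [zpow_natCast]; exact hk.symm),
    toAdd_ofAdd, Int.cast_natCast, ← map_pow, ← ofAdd_nsmul, ← unitPow_two]
  refine congrArg (fun t => unitPow (Multiplicative.ofAdd t)) ?_
  rw [nsmul_eq_mul, ← Nat.cast_mul, show (2 : ZMod 4) = ((2 : ℕ) : ZMod 4) from rfl,
    ZMod.natCast_eq_natCast_iff']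
  omega

end FermatAgent.LTG.Setup

namespace FermatAgent.LTG.Dihedral

open FermatAgent.Duality.Global (Over exists_over exists_place)
open FermatAgent.LT.ClassField (unitPow unitPow_two unitPow_neg_mul)

local notation "GQ" => AlgebraicClosure ℚ ≃ₐ[ℚ] AlgebraicClosure ℚ

attribute [local instance] FermatAgent.RT.isGalois_algClosureRat

/-- **Every setup has dihedral data.** -/
theorem hasDihedralData (S : Setup) : HasDihedralData S := by
  classical
  obtain ⟨g, hg, hgM⟩ := S.exists_gal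
  let D : DihedralData S.F S.m :=
    { M := S.M
      finrank_eq := S.finrank_F_M
      totallyComplex := fun v => S.instIsTotallyComplexF.isComplex v
      σ := S.galM g hg
      σ_ne := S.galM_ne_one hg hgM
      unramified := fun q hq => S.map_isRadical q hq
      r := S.quartic.modExp
      r_ne_zero := S.quartic.modExp_ne_zero
      ξ := S.xiM
      ξ_eq_zero := S.xiM_eq_zero
      ξ_pow_four := S.xiM_pow_four
      ξ_conj := fun I hI => S.xiM_conj hg hgM I hI
      ξ_base := fun q hq => S.xiM_base hg hgM q hq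
      χ := S.quartic.resChar
      ξ_principal := fun x => (S.quartic.resChar_mk x).symm
      exists_sq_eq_neg_one := S.exists_xiM_sq }
  refine ⟨D, fun v hm σ hσ => ?_⟩
  obtain ⟨hσF, A, hA, hσA⟩ := hσ
  obtain ⟨Q, hQm, hcase⟩ := S.splitting hg hgM hm (ClassField.overOf hA) hσF hσA
  rcases hcase with ⟨hmap, hσM, -⟩ | ⟨hne, hmap, hσM, hval⟩
  · have hempty : ∀ I : Ideal (𝓞 S.M), I * I.map (S.sigmaO hg) ≠
        v.asIdeal.map (algebraMap (𝓞 S.F) (𝓞 S.M)) := fun I hI =>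
      S.fibre_inert hg hgM (hI.trans hmap)
    have hzero : D.coeff v.asIdeal = 0 := by
      unfold DihedralData.coeff
      exact finsum_eq_zero_of_forall_eq_zero fun I => absurd I.2 (hempty I.1)
    rw [hzero]
    obtain ⟨-, h2, h3'⟩ := S.anticomm hσF hσM
    have h1 : S.ρ σ ≠ 1 := fun e => h3' (by rw [e, one_mul, mul_one])
    have hm1 : S.ρ σ ≠ -1 := fun e => h3' (by rw [e, neg_mul, mul_neg, one_mul, mul_one])
    simp [q8Trace, h1, hm1]
  · obtain ⟨hm', -, hneg⟩ := S.conjPrime_frobVal hg hgM hQm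
    set Q' := S.conjPrime hg hgM Q
    have hQmem : Q.asIdeal * Q.asIdeal.map (S.sigmaO hg) =
        v.asIdeal.map (algebraMap (𝓞 S.F) (𝓞 S.M)) := hmap.symm
    have hQ'mem : Q'.asIdeal * Q'.asIdeal.map (S.sigmaO hg) =
        v.asIdeal.map (algebraMap (𝓞 S.F) (𝓞 S.M)) := by
      rw [show Q'.asIdeal.map (S.sigmaO hg) = Q.asIdeal from S.map_map_sigmaO hg hgM _, mul_comm]
      exact hQmem
    let a : {I : Ideal (𝓞 S.M) // I * I.map (S.sigmaO hg) =
        v.asIdeal.map (algebraMap (𝓞 S.F) (𝓞 S.M))} := ⟨Q.asIdeal, hQmem⟩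
    let b : {I : Ideal (𝓞 S.M) // I * I.map (S.sigmaO hg) =
        v.asIdeal.map (algebraMap (𝓞 S.F) (𝓞 S.M))} := ⟨Q'.asIdeal, hQ'mem⟩
    have hab : a ≠ b := fun e => hne (HeightOneSpectrum.ext (congrArg Subtype.val e).symm)
    have hsum : ∑ᶠ I : {I : Ideal (𝓞 S.M) // I * I.map (S.sigmaO hg) =
        v.asIdeal.map (algebraMap (𝓞 S.F) (𝓞 S.M))}, S.xiM I = S.xiM a + S.xiM b := by
      rw [finsum_eq_sum_of_support_subset _ (s := {a, b}) fun I _ => ?_, Finset.sum_pair hab]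
      rcases S.fibre_split hg hgM (I.2.trans hmap) with e | e
      · simp [show I = a from Subtype.ext e]
      · simp [show I = b from Subtype.ext e]
    have hcoeff : D.coeff v.asIdeal = S.xiM Q.asIdeal + S.xiM Q'.asIdeal := hsum
    rw [hcoeff, S.xiM_prime hQm, S.xiM_prime hm', hneg, hval, S.q8Trace_eq ⟨σ, hσM⟩]
    rfl

end FermatAgent.LTG.Dihedral

end
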